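import Mathlib

/-!
# Auxiliary primes for the crossing argument

* `exists_prime_dvd_orderOf`: for an odd prime `p` and `a ≥ 2` there are arbitrarily large primes
  `q` such that `p` divides the multiplicative order of `a` modulo `q`.
-/

set_option autoImplicit false

noncomputable section

namespace Fermat.Agent.ClassField.Recip

lemma geom_sum_ne_prime_pow_case {p : ℕ} (hp : p.Prime) (hp2 : p ≠ 2) (b : ℤ)
    (hb : (p : ℤ) ∣ b - 1) : ¬ (p : ℤ) ^ 2 ∣ ∑ i ∈ Finset.range p, b ^ i := by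
  obtain ⟨t, ht⟩ := hb
  have hodd : Odd p := hp.odd_of_ne_two hp2
  have key : ∀ n : ℕ, (p : ℤ) ^ 2 ∣ b ^ n - (1 + (n : ℤ) * ((p : ℤ) * t)) := by
    intro n
    induction n with
    | zero => simp
    | succ n ih =>
      obtain ⟨u, hu⟩ := ih
      refine ⟨u * b + (n : ℤ) * t ^ 2, ?_⟩
      rw [pow_succ]
      have hb' : b = 1 + p * t := by linarith
      push_cast
      linear_combination b * hu + (1 + (n : ℤ) * (↑p * t)) * hb'
  have hsum : (p : ℤ) ^ 2 ∣
      (∑ i ∈ Finset.range p, b ^ i) - ∑ i ∈ Finset.range p, (1 + (i : ℤ) * ((p : ℤ) * t)) := by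
    rw [← Finset.sum_sub_distrib]
    exact Finset.dvd_sum fun i _ => key i
  intro h
  obtain ⟨c, hc⟩ := hodd
  have h2 : (∑ i ∈ Finset.range p, (i : ℤ)) = p * c := by
    have := Finset.sum_range_id_mul_two p
    have h' : (∑ i ∈ Finset.range p, i) = p * c := by
      have e : p - 1 = c * 2 := by omega
      rw [e, ← mul_assoc] at this
      omega
    rw [← Nat.cast_sum, h']; push_cast; rfl
  have h3 : (∑ i ∈ Finset.range p, (1 + (i : ℤ) * ((p : ℤ) * t))) = p + (p : ℤ) ^ 2 * (c * t) := by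
    rw [Finset.sum_add_distrib, ← Finset.sum_mul, h2]
    simp
    ring
  have h4 : (p : ℤ) ^ 2 ∣ p := by
    have := dvd_sub h hsum
    rw [sub_sub_cancel, h3] at this
    exact (dvd_add_left (Dvd.intro _ rfl)).mp this
  have h5 : p ^ 2 ∣ p := by exact_mod_cast h4
  have h6 := Nat.le_of_dvd hp.pos h5
  have := hp.two_le
  nlinarith

/-- There are arbitrarily large primes `q` with `p ∣ orderOf (a mod q)`. -/
theorem exists_prime_dvd_orderOf {p : ℕ} (hp : p.Prime) (hp2 : p ≠ 2) {a : ℕ} (ha : 2 ≤ a)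
    (B : ℕ) : ∃ q : ℕ, q.Prime ∧ B < q ∧ p ∣ orderOf (a : ZMod q) := by
  have := Fact.mk hp
  set b : ℕ := a ^ p ^ B with hb
  set S : ℕ := ∑ i ∈ Finset.range p, b ^ i with hS
  have hb2 : 2 ≤ b := le_trans ha (Nat.le_self_pow (pow_ne_zero _ hp.ne_zero) a)
  have hSbig : p < S := by
    calc p = ∑ i ∈ Finset.range p, 1 := by simp
      _ < S := by
        refine Finset.sum_lt_sum (fun i _ => Nat.one_le_pow _ _ (by omega)) ⟨1, ?_, ?_⟩
        · simp [hp.one_lt]
        · simp; omega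
  obtain ⟨q, hq, hqp, hqS⟩ : ∃ q : ℕ, q.Prime ∧ q ≠ p ∧ q ∣ S := by
    by_contra hcon
    push Not at hcon
    have hall : ∀ d : ℕ, d.Prime → d ∣ S → d = p := fun d hd hdS => by
      by_contra hne
      exact hcon d hd hne hdS
    have hpow := Nat.eq_prime_pow_of_unique_prime_dvd (by omega : S ≠ 0) (fun {d} => hall d)
    have h1 : 2 ≤ S.primeFactorsList.length := by
      by_contra hlt
      have := Nat.pow_le_pow_right hp.pos (show S.primeFactorsList.length ≤ 1 by omega)
      rw [← hpow, pow_one] at this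
      omega
    have hp2S : p ^ 2 ∣ S := hpow ▸ pow_dvd_pow p h1
    by_cases hb1 : (p : ℤ) ∣ (b : ℤ) - 1
    · refine geom_sum_ne_prime_pow_case hp hp2 (b : ℤ) hb1 ?_
      have : ((p ^ 2 : ℕ) : ℤ) ∣ (S : ℤ) := Int.natCast_dvd_natCast.mpr hp2S
      simpa [hS] using this
    · apply hb1
      have hS0 : (S : ZMod p) = 0 :=
        (ZMod.natCast_eq_zero_iff S p).mpr ((dvd_pow_self p two_ne_zero).trans hp2S)
      have hgeo : ((b : ZMod p) ^ p - 1) = (S : ZMod p) * ((b : ZMod p) - 1) := by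
        rw [hS]; push_cast; rw [geom_sum_mul]
      rw [hS0, zero_mul, ZMod.pow_card] at hgeo
      rw [← ZMod.intCast_zmod_eq_zero_iff_dvd]
      push_cast
      exact hgeo
  have := Fact.mk hq
  have hgeo : ((b : ZMod q) ^ p - 1) = 0 := by
    have hS0 : (S : ZMod q) = 0 := (ZMod.natCast_eq_zero_iff S q).mpr hqS
    have h : ((b : ZMod q) ^ p - 1) = (S : ZMod q) * ((b : ZMod q) - 1) := by
      rw [hS]; push_cast; rw [geom_sum_mul]
    rw [h, hS0, zero_mul]
  have hne : (b : ZMod q) ≠ 1 := by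
    intro h1
    have : (S : ZMod q) = (p : ZMod q) := by rw [hS]; push_cast; simp [h1]
    rw [(ZMod.natCast_eq_zero_iff S q).mpr hqS, eq_comm, ZMod.natCast_eq_zero_iff] at this
    exact hqp ((Nat.prime_dvd_prime_iff_eq hq hp).mp this)
  have hord : orderOf (a : ZMod q) = p ^ (B + 1) := by
    refine orderOf_eq_prime_pow (fun h => hne ?_) ?_
    · rw [hb]; push_cast; exact h
    · rw [pow_succ, pow_mul]
      have : (b : ZMod q) ^ p = 1 := sub_eq_zero.mp hgeo
      rw [hb] at this; push_cast at this; exact this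
  refine ⟨q, hq, ?_, hord ▸ dvd_pow_self p (Nat.succ_ne_zero B)⟩
  have hle : orderOf (a : ZMod q) ≤ q := by
    simpa using orderOf_le_card_univ (x := (a : ZMod q))
  rw [hord] at hle
  have hlt : B + 1 < p ^ (B + 1) := Nat.lt_pow_self hp.one_lt
  omega

end Fermat.Agent.ClassField.Recip
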