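import Mathlib.RingTheory.ClassGroup.Basic
import Mathlib.RingTheory.Ideal.Norm.RelNorm
import Mathlib.RingTheory.Frobenius
import Mathlib.NumberTheory.NumberField.Basic
import Mathlib.NumberTheory.NumberField.ClassNumber
import Mathlib.FieldTheory.Galois.Basic
import Mathlib.NumberTheory.RamificationInertia.Galois
import Mathlib.NumberTheory.RamificationInertia.Unramified

/-!
# Norms on class groups and basic facts about Frobenius elements

Common definitions for reciprocity of unramified cyclic extensions.
-/

set_option autoImplicit false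

noncomputable section

open NumberField
open scoped nonZeroDivisors

namespace Fermat.Agent.ClassField.Recip

section ClassGroupNorm

variable (R S : Type*) [CommRing R] [IsDedekindDomain R] [CommRing S] [IsDedekindDomain S]
  [Algebra R S] [Module.Finite R S] [Module.IsTorsionFree R S]

/-- The relative norm of nonzero ideals. -/
def relNorm0 : (Ideal S)⁰ →* (Ideal R)⁰ where
  toFun I := ⟨Ideal.relNorm R (I : Ideal S), mem_nonZeroDivisors_iff_ne_zero.mpr fun h ↦
    nonZeroDivisors.coe_ne_zero I (Ideal.relNorm_eq_bot_iff.mp h)⟩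
  map_one' := Subtype.ext (map_one _)
  map_mul' I J := Subtype.ext (map_mul _ _ _)

@[simp] lemma coe_relNorm0 (I : (Ideal S)⁰) :
    (relNorm0 R S I : Ideal R) = Ideal.relNorm R (I : Ideal S) := rfl

lemma mk0_relNorm0_eq {I J : (Ideal S)⁰} (h : ClassGroup.mk0 I = ClassGroup.mk0 J) :
    ClassGroup.mk0 (relNorm0 R S I) = ClassGroup.mk0 (relNorm0 R S J) := by
  obtain ⟨x, y, hx, hy, hxy⟩ := ClassGroup.mk0_eq_mk0_iff.mp h
  refine ClassGroup.mk0_eq_mk0_iff.mpr
    ⟨Algebra.intNorm R S x, Algebra.intNorm R S y, ?_, ?_, ?_⟩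
  · simpa [Algebra.intNorm_eq_zero] using hx
  · simpa [Algebra.intNorm_eq_zero] using hy
  · rw [coe_relNorm0, coe_relNorm0, ← Ideal.relNorm_singleton, ← Ideal.relNorm_singleton,
      ← map_mul, ← map_mul, hxy]

/-- The norm map on class groups. -/
def classNorm : ClassGroup S →* ClassGroup R where
  toFun c := ClassGroup.mk0 (relNorm0 R S (Function.surjInv ClassGroup.mk0_surjective c))
  map_one' := by
    rw [mk0_relNorm0_eq R S (J := 1), map_one, map_one]
    rw [Function.surjInv_eq ClassGroup.mk0_surjective, map_one]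
  map_mul' a b := by
    rw [← map_mul, ← map_mul]
    apply mk0_relNorm0_eq
    simp [map_mul, Function.surjInv_eq ClassGroup.mk0_surjective]

lemma classNorm_mk0 (I : (Ideal S)⁰) :
    classNorm R S (ClassGroup.mk0 I) = ClassGroup.mk0 (relNorm0 R S I) :=
  mk0_relNorm0_eq R S (Function.surjInv_eq ClassGroup.mk0_surjective _)

end ClassGroupNorm

end Fermat.Agent.ClassField.Recip
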