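import Mathlib

/-!
# Cyclotomic extensions of a Galois extension of number fields

For `M = L(ζ_n)` with `n` prime to the discriminant of `L`, the group `Gal(M/K)` surjects onto
`Gal(L/K) × (ℤ/n)ˣ`.
-/

set_option autoImplicit false

noncomputable section

open NumberField IntermediateField

namespace Fermat.Agent.ClassField.Recip

variable (K L M : Type*) [Field K] [NumberField K] [Field L] [NumberField L] [Field M]
  [NumberField M] [Algebra K L] [Algebra K M] [Algebra L M] [IsScalarTower K L M] [IsGalois K L]
  {n : ℕ} [NeZero n] {ζ : M}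

lemma isCyclotomicExtension_of_adjoin_eq_top (hζ : IsPrimitiveRoot ζ n)
    (hgen : IntermediateField.adjoin L {ζ} = ⊤) : IsCyclotomicExtension {n} L M := by
  have := hζ.intermediateField_adjoin_isCyclotomicExtension L
  rw [hgen] at this
  exact this.equiv _ _ _ IntermediateField.topEquiv

lemma isGalois_of_adjoin_eq_top (hζ : IsPrimitiveRoot ζ n)
    (hgen : IntermediateField.adjoin L {ζ} = ⊤) : IsGalois K M := by
  let A : IntermediateField K M := (IsScalarTower.toAlgHom K L M).fieldRange
  let B : IntermediateField K M := K⟮ζ⟯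
  have hA : Normal K A :=
    Normal.of_algEquiv (AlgEquiv.ofInjectiveField (IsScalarTower.toAlgHom K L M))
  have := hζ.intermediateField_adjoin_isCyclotomicExtension K
  have hB : Normal K B := (IsCyclotomicExtension.isGalois {n} K B).to_normal
  have hAB : A ⊔ B = ⊤ := by
    rw [eq_top_iff]
    intro x hx'
    clear hx'
    have hx : x ∈ IntermediateField.adjoin L {ζ} := hgen ▸ IntermediateField.mem_top
    induction hx using IntermediateField.adjoin_induction with
    | mem y hy =>
      rw [Set.mem_singleton_iff] at hy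
      subst hy
      exact le_sup_right (a := A) (IntermediateField.mem_adjoin_simple_self K y)
    | algebraMap y => exact le_sup_left (b := B) ⟨y, rfl⟩
    | add y z _ _ h1 h2 => exact add_mem h1 h2
    | inv y _ h1 => exact inv_mem h1
    | mul y z _ _ h1 h2 => exact mul_mem h1 h2
  have : Normal K (⊤ : IntermediateField K M) := hAB ▸ IntermediateField.normal_sup (E := A) (E' := B)
  have : Normal K M := Normal.of_algEquiv IntermediateField.topEquiv
  exact ⟨⟩

lemma finrank_eq_totient (hζ : IsPrimitiveRoot ζ n)
    (hgen : IntermediateField.adjoin L {ζ} = ⊤) (hcop : (discr L).natAbs.Coprime n) :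
    Module.finrank L M = n.totient := by
  let F₁ : IntermediateField ℚ M := ℚ⟮ζ⟯
  let F₂ : IntermediateField ℚ M := (IsScalarTower.toAlgHom ℚ L M).fieldRange
  haveI : IsCyclotomicExtension {n} ℚ F₁ := by
    convert! hζ.intermediateField_adjoin_isCyclotomicExtension ℚ
  have : IsGalois ℚ F₁ := IsCyclotomicExtension.isGalois {n} ℚ F₁
  let e : L ≃ₐ[ℚ] F₂ := AlgEquiv.ofInjectiveField (IsScalarTower.toAlgHom ℚ L M)
  have hd2 : discr F₂ = discr L := (discr_eq_discr_of_algEquiv L e).symm
  have hdj : F₁.LinearDisjoint F₂ := by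
    refine linearDisjoint_of_isGalois_isCoprime_discr M F₁ F₂ ?_
    rw [Int.isCoprime_iff_nat_coprime, hd2, IsCyclotomicExtension.Rat.natAbs_discr n F₁]
    refine Nat.Coprime.coprime_div_left ?_
      (Nat.prod_primeFactors_pow_totient_ediv_dvd (NeZero.pos _))
    exact Nat.Coprime.pow_left _ hcop.symm
  have htop : F₁ ⊔ F₂ = ⊤ := by
    rw [eq_top_iff]
    intro x hx'
    clear hx'
    have hx : x ∈ IntermediateField.adjoin L {ζ} := hgen ▸ IntermediateField.mem_top
    induction hx using IntermediateField.adjoin_induction with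
    | mem y hy =>
      rw [Set.mem_singleton_iff] at hy
      subst hy
      exact le_sup_left (b := F₂) (IntermediateField.mem_adjoin_simple_self ℚ y)
    | algebraMap y => exact le_sup_right (a := F₁) ⟨y, rfl⟩
    | add y z _ _ h1 h2 => exact add_mem h1 h2
    | inv y _ h1 => exact inv_mem h1
    | mul y z _ _ h1 h2 => exact mul_mem h1 h2
  have h1 : Module.finrank ℚ M = n.totient * Module.finrank ℚ L := by
    have := hdj.finrank_sup
    rw [htop, IntermediateField.finrank_top', IsCyclotomicExtension.Rat.finrank n F₁] at this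
    rw [this, ← e.toLinearEquiv.finrank_eq]
  have h2 := Module.finrank_mul_finrank ℚ L M
  rw [h1, mul_comm n.totient] at h2
  exact Nat.eq_of_mul_eq_mul_left Module.finrank_pos h2

/-- `Gal(M/K) → Gal(L/K) × (ℤ/n)ˣ` is surjective. -/
theorem exists_restrictNormal_eq_and_autToPow_eq (hζ : IsPrimitiveRoot ζ n)
    (hgen : IntermediateField.adjoin L {ζ} = ⊤) (hcop : (discr L).natAbs.Coprime n)
    (σ : L ≃ₐ[K] L) (u : (ZMod n)ˣ) :
    ∃ g : M ≃ₐ[K] M, g.restrictNormal L = σ ∧ hζ.autToPow K g = u := by
  have := isGalois_of_adjoin_eq_top K L M hζ hgen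
  have := isCyclotomicExtension_of_adjoin_eq_top L M hζ hgen
  have : IsGalois L M := IsCyclotomicExtension.isGalois {n} L M
  have hinj : Function.Injective (hζ.autToPow L) := hζ.autToPow_injective L
  have hcard : Nat.card (M ≃ₐ[L] M) = Nat.card (ZMod n)ˣ := by
    rw [IsGalois.card_aut_eq_finrank, finrank_eq_totient L M hζ hgen hcop, Nat.card_eq_fintype_card,
      ZMod.card_units_eq_totient]
  have hsurj : Function.Surjective (hζ.autToPow L) :=
    ((Nat.bijective_iff_injective_and_card _).mpr ⟨hinj, hcard⟩).surjective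
  let g₀ : M ≃ₐ[K] M := σ.liftNormal M
  obtain ⟨t, ht⟩ := hsurj ((hζ.autToPow K g₀)⁻¹ * u)
  refine ⟨g₀ * t.restrictScalars K, ?_, ?_⟩
  · apply AlgEquiv.ext
    intro x
    apply (algebraMap L M).injective
    rw [AlgEquiv.restrictNormal_commutes, AlgEquiv.mul_apply]
    simp [g₀, AlgEquiv.liftNormal_commutes]
  · rw [map_mul]
    have : hζ.autToPow K (t.restrictScalars K) = hζ.autToPow L t := rfl
    rw [this, ht, mul_inv_cancel_left]

end Fermat.Agent.ClassField.Recip
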