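import Mathlib

/-!
# Even characters of `(ℤ/q)ˣ` with a prescribed value at an element of order divisible by `p`
-/

set_option autoImplicit false

noncomputable section

namespace Fermat.Agent.ClassField.Recip

lemma exists_hom_apply_eq {G : Type*} [CommGroup G] [Finite G] (a : G) (z : ℂˣ)
    (hz : orderOf z ∣ orderOf a) : ∃ φ : G →* ℂˣ, φ a = z := by
  have hgen : ∀ x : Subgroup.zpowers a,
      x ∈ Subgroup.zpowers (⟨a, Subgroup.mem_zpowers _⟩ : Subgroup.zpowers a) := by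
    rintro ⟨x, hx⟩
    obtain ⟨k, rfl⟩ := Subgroup.mem_zpowers_iff.mp hx
    exact ⟨k, Subtype.ext (by simp)⟩
  have hz' : orderOf z ∣ orderOf (⟨a, Subgroup.mem_zpowers _⟩ : Subgroup.zpowers a) := by
    rwa [Subgroup.orderOf_mk]
  obtain ⟨φ, hφ⟩ := MonoidHom.domRestrict_surjective ℂ (Subgroup.zpowers a)
    (monoidHomOfForallMemZpowers hgen hz')
  refine ⟨φ, ?_⟩
  have h1 := DFunLike.congr_fun hφ ⟨a, Subgroup.mem_zpowers _⟩
  rw [monoidHomOfForallMemZpowers_apply_gen hgen hz'] at h1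
  exact h1

/-- An even character taking a given `p`-th root of unity at `a`, if `p ∣ orderOf a`. -/
theorem exists_even_char {q : ℕ} [NeZero q] {p : ℕ} (hp : p.Prime) (hp2 : p ≠ 2) (a : (ZMod q)ˣ)
    (ha : p ∣ orderOf a) (z : ℂˣ) (hz : z ^ p = 1) :
    ∃ h : (ZMod q)ˣ →* ℂˣ, h (-1) = 1 ∧ h a = z := by
  let Nn : Subgroup (ZMod q)ˣ := Subgroup.zpowers (-1)
  let π := QuotientGroup.mk' Nn
  have hN : ∀ x ∈ Nn, x ^ 2 = 1 := by
    intro x hx
    obtain ⟨k, rfl⟩ := Subgroup.mem_zpowers_iff.mp hx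
    rw [← zpow_natCast, ← zpow_mul, mul_comm, zpow_mul]
    simp
  have hord : p ∣ orderOf (π a) := by
    have h1 : a ^ (2 * orderOf (π a)) = 1 := by
      rw [mul_comm, pow_mul]
      apply hN
      rw [← QuotientGroup.eq_one_iff]
      change π (a ^ orderOf (π a)) = 1
      rw [map_pow, pow_orderOf_eq_one]
    refine (Nat.Coprime.dvd_of_dvd_mul_left ?_ (ha.trans (orderOf_dvd_of_pow_eq_one h1)))
    exact (Nat.coprime_primes hp Nat.prime_two).mpr hp2
  obtain ⟨φ', hφ'⟩ := exists_hom_apply_eq (π a) z ((orderOf_dvd_of_pow_eq_one hz).trans hord)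
  refine ⟨φ'.comp π, ?_, ?_⟩
  · have : π (-1) = 1 := (QuotientGroup.eq_one_iff _).mpr (Subgroup.mem_zpowers _)
    rw [MonoidHom.comp_apply, this, map_one]
  · exact hφ'

end Fermat.Agent.ClassField.Recip
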