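import Mathlib.RingTheory.Frobenius
import Mathlib.RingTheory.Ideal.Norm.AbsNorm
import Mathlib.RingTheory.Ideal.Norm.RelNorm
import Mathlib.NumberTheory.NumberField.Basic
import Mathlib.NumberTheory.NumberField.ClassNumber
import Mathlib.FieldTheory.Galois.Basic
import Mathlib.NumberTheory.RamificationInertia.Galois
import Mathlib.NumberTheory.NumberField.Ideal.Basic

/-!
# Frobenius elements in abelian extensions of number fields, and their restriction
-/

set_option autoImplicit false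

noncomputable section

open NumberField
open scoped Pointwise

namespace Fermat.Agent.ClassField.Recip

variable {K L : Type*} [Field K] [NumberField K] [Field L] [NumberField L] [Algebra K L]
  [IsGalois K L]

lemma natCard_quotient_eq_absNorm {F : Type*} [Field F] [NumberField F] (I : Ideal (𝓞 F)) :
    Nat.card (𝓞 F ⧸ I) = Ideal.absNorm I := by
  rw [Ideal.absNorm_apply, Submodule.cardQuot_apply]

lemma finite_quotient_of_isMaximal {F : Type*} [Field F] [NumberField F] (Q : Ideal (𝓞 F))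
    [hQ : Q.IsMaximal] : Finite (𝓞 F ⧸ Q) :=
  Ideal.finiteQuotientOfFreeOfNeBot Q
    (Ring.ne_bot_of_isMaximal_of_not_isField hQ (RingOfIntegers.not_isField F))

/-- Frobenius elements exist. -/
lemma exists_isArithFrobAt (Q : Ideal (𝓞 L)) [Q.IsMaximal] :
    ∃ σ : L ≃ₐ[K] L, IsArithFrobAt (𝓞 K) σ Q :=
  have := finite_quotient_of_isMaximal Q
  IsArithFrobAt.exists_of_isInvariant (𝓞 K) (L ≃ₐ[K] L) Q

/-- Frobenius elements are unique at primes with trivial inertia. -/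
lemma frob_unique {Q : Ideal (𝓞 L)} (hI : Q.inertia (L ≃ₐ[K] L) = ⊥) {σ σ' : L ≃ₐ[K] L}
    (h : IsArithFrobAt (𝓞 K) σ Q) (h' : IsArithFrobAt (𝓞 K) σ' Q) : σ = σ' := by
  have := h.mul_inv_mem_inertia h'
  rw [hI, Subgroup.mem_bot] at this
  exact mul_inv_eq_one.mp this

/-- In an abelian extension a Frobenius element serves all primes over the same prime. -/
lemma frob_of_under_eq (hc : ∀ a b : L ≃ₐ[K] L, a * b = b * a)
    {Q Q' : Ideal (𝓞 L)} [Q.IsPrime] [Q'.IsPrime] (hQQ' : Q.under (𝓞 K) = Q'.under (𝓞 K))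
    {σ : L ≃ₐ[K] L} (h : IsArithFrobAt (𝓞 K) σ Q) : IsArithFrobAt (𝓞 K) σ Q' := by
  obtain ⟨τ, hτ⟩ :=
    Algebra.IsInvariant.exists_smul_of_under_eq (𝓞 K) (𝓞 L) (L ≃ₐ[K] L) Q Q' hQQ'
  have := h.conj τ
  rwa [hc τ σ, mul_inv_cancel_right, ← hτ] at this

lemma frob_smul_sub_pow_mem {Q : Ideal (𝓞 L)} {σ : L ≃ₐ[K] L} (h : IsArithFrobAt (𝓞 K) σ Q)
    (k : ℕ) (x : 𝓞 L) :
    (σ ^ k) • x - x ^ (Ideal.absNorm (Q.under (𝓞 K)) ^ k) ∈ Q := by
  induction k generalizing x with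
  | zero => simp
  | succ k ih =>
    have h1 : ∀ y, σ • y - y ^ Ideal.absNorm (Q.under (𝓞 K)) ∈ Q := fun y => by
      rw [← natCard_quotient_eq_absNorm]; exact h y
    have h2 := ih x
    have h3 := h1 ((σ ^ k) • x)
    have h4 : ((σ ^ k) • x) ^ Ideal.absNorm (Q.under (𝓞 K)) -
        (x ^ (Ideal.absNorm (Q.under (𝓞 K)) ^ k)) ^ Ideal.absNorm (Q.under (𝓞 K)) ∈ Q :=
      Ideal.mem_of_dvd _ (sub_dvd_pow_sub_pow _ _ _) h2
    rw [pow_succ', mul_smul, pow_succ, pow_mul]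
    simpa using Q.add_mem h3 h4

variable {M : Type*} [Field M] [NumberField M] [Algebra K M] [Algebra L M] [IsScalarTower K L M]

lemma algebraMap_restrictNormal_smul (g : M ≃ₐ[K] M) (x : 𝓞 L) :
    algebraMap (𝓞 L) (𝓞 M) ((g.restrictNormal L) • x) = g • algebraMap (𝓞 L) (𝓞 M) x := by
  apply RingOfIntegers.ext
  exact AlgEquiv.restrictNormal_commutes g L (x : L)

/-- An element of `Gal(M/K)` acting as `x ↦ x ^ (N P ^ f)` modulo a prime `W` above the unramified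
prime `P` restricts to `σ_P ^ f`. -/
theorem restrictNormal_eq_frob_pow {W : Ideal (𝓞 M)} [W.IsPrime] {σ : L ≃ₐ[K] L}
    (hσ : IsArithFrobAt (𝓞 K) σ (W.under (𝓞 L)))
    (hI : (W.under (𝓞 L)).inertia (L ≃ₐ[K] L) = ⊥) {g : M ≃ₐ[K] M} {n f : ℕ}
    (hg : ∀ x : 𝓞 M, g • x - x ^ n ∈ W)
    (hn : n = Ideal.absNorm (W.under (𝓞 K)) ^ f) :
    g.restrictNormal L = σ ^ f := by
  have hunder : (W.under (𝓞 L)).under (𝓞 K) = W.under (𝓞 K) := Ideal.under_under W
  have h1 : ∀ x : 𝓞 L, (g.restrictNormal L) • x - (σ ^ f) • x ∈ W.under (𝓞 L) := fun x => by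
    have ha : (g.restrictNormal L) • x - x ^ n ∈ W.under (𝓞 L) := by
      rw [Ideal.under_def, Ideal.mem_comap, map_sub, map_pow, algebraMap_restrictNormal_smul]
      exact hg _
    have hb := frob_smul_sub_pow_mem hσ f x
    rw [hunder, ← hn] at hb
    simpa using Ideal.sub_mem _ ha hb
  have h2 : g.restrictNormal L * (σ ^ f)⁻¹ ∈ (W.under (𝓞 L)).inertia (L ≃ₐ[K] L) := fun x => by
    have := h1 ((σ ^ f)⁻¹ • x)
    rwa [smul_inv_smul, ← mul_smul] at this
  rw [hI, Subgroup.mem_bot] at h2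
  exact mul_inv_eq_one.mp h2

omit [IsGalois K L] in
/-- The relative norm of a prime is the power of the prime below given by the norms. -/
lemma exists_relNorm_eq_pow (R : Ideal (𝓞 L)) [R.IsMaximal] :
    ∃ f : ℕ, 0 < f ∧ Ideal.relNorm (𝓞 K) R = R.under (𝓞 K) ^ f ∧
      Ideal.absNorm R = Ideal.absNorm (R.under (𝓞 K)) ^ f := by
  have : (R.under (𝓞 K)).IsMaximal := Ideal.isMaximal_comap_of_isIntegral_of_isMaximal R
  have h := Ideal.relNorm_eq_pow_of_isMaximal R (R.under (𝓞 K))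
  refine ⟨R.inertiaDeg (𝓞 K), Ideal.inertiaDeg_pos R (𝓞 K), h, ?_⟩
  rw [← Ideal.absNorm_relNorm (R := 𝓞 K) (S := 𝓞 L) R, h, map_pow]

end Fermat.Agent.ClassField.Recip
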