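import Fermat.Agent.ClassField.PrimeSum
import Fermat.Agent.ClassField.RayLSeriesBound
import Fermat.Agent.Density.Analytic
import Fermat.Agent.ClassField.Recip.Frob

/-!
# Class characters killed by the kernel of a norm-residue character

`exists_pow_eq_of_norm_ker`: if a class character `ψ` of order `p` is trivial at all primes `R`
with `h (N R mod m) = 1`, where `h` is an even character with values of order dividing `p` on norms, then
`ψ` is a power of `h ∘ N`.
-/

set_option autoImplicit false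

noncomputable section

open NumberField Filter IsDedekindDomain
open scoped nonZeroDivisors Topology

namespace Fermat.Agent.ClassField.Recip

section Aux

variable {E : Type*} [Field E] [NumberField E]

/-- The norm is a congruence function modulo every natural number. -/
lemma norm_intCast_congr {m : ℕ} {x y : 𝓞 E} (h : x - y ∈ Ideal.span {(m : 𝓞 E)}) :
    ((Algebra.norm ℤ x : ℤ) : ZMod m) = (Algebra.norm ℤ y : ℤ) := by
  obtain ⟨z, hz⟩ := Ideal.mem_span_singleton'.mp h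
  let b := RingOfIntegers.basis E
  have key : ∀ w : 𝓞 E, ((Algebra.norm ℤ w : ℤ) : ZMod m) =
      ((Algebra.leftMulMatrix b w).map (Int.castRingHom (ZMod m))).det := fun w => by
    rw [Algebra.norm_eq_matrix_det b]
    exact (Int.castRingHom (ZMod m)).map_det _
  rw [key, key, show x = y + z * (m : 𝓞 E) by rw [hz]; ring, map_add, map_mul, map_natCast]
  congr 1
  change (Int.castRingHom (ZMod m)).mapMatrix (_ + _ * (m : Matrix (Module.Free.ChooseBasisIndex ℤ (𝓞 E)) (Module.Free.ChooseBasisIndex ℤ (𝓞 E)) ℤ)) =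
    (Int.castRingHom (ZMod m)).mapMatrix _
  rw [map_add, map_mul, map_natCast, ← Matrix.diagonal_natCast]
  simp [ZMod.natCast_self]

lemma coprime_absNorm_iff_isCoprime {m : ℕ} (I : Ideal (𝓞 E)) :
    (Ideal.absNorm I).Coprime m ↔ IsCoprime I (Ideal.span {(m : 𝓞 E)}) := by
  rw [Ideal.isCoprime_iff_exists]
  constructor
  · intro h
    obtain ⟨a, b, hab⟩ := h.isCoprime
    refine ⟨(a : 𝓞 E) * (Ideal.absNorm I : ℕ), I.mul_mem_left _ (Ideal.absNorm_mem I),
      (b : 𝓞 E) * (m : 𝓞 E), Ideal.mul_mem_left _ _ (Ideal.mem_span_singleton_self _), ?_⟩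
    exact_mod_cast congrArg (Int.cast : ℤ → 𝓞 E) hab
  · rintro ⟨x, hx, y, hy, hxy⟩
    have h1 : ((Algebra.norm ℤ x : ℤ) : ZMod m) = 1 := by
      rw [norm_intCast_congr (m := m) (x := x) (y := 1) (by
        rw [← hxy, sub_add_cancel_left]; exact neg_mem hy)]
      simp
    obtain ⟨t, ht⟩ : (Ideal.absNorm I : ℤ) ∣ Algebra.norm ℤ x := by
      rw [Int.natCast_dvd, ← Ideal.absNorm_span_singleton]
      exact Ideal.absNorm_dvd_absNorm_of_le ((Ideal.span_singleton_le_iff_mem I).mpr hx)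
    rw [← ZMod.isUnit_iff_coprime]
    rw [ht, Int.cast_mul, Int.cast_natCast] at h1
    exact IsUnit.of_mul_eq_one _ h1

open scoped Classical in
/-- A class character as a function on ideals, zero at `⊥`. -/
def classChar (ψ : ClassGroup (𝓞 E) →* ℂˣ) (I : Ideal (𝓞 E)) : ℂ :=
  if h : I = ⊥ then 0 else (ψ (ClassGroup.mk0 ⟨I, mem_nonZeroDivisors_iff_ne_zero.mpr h⟩) : ℂˣ)

lemma classChar_coe (ψ : ClassGroup (𝓞 E) →* ℂˣ) (I : (Ideal (𝓞 E))⁰) :
    classChar ψ (I : Ideal (𝓞 E)) = (ψ (ClassGroup.mk0 I) : ℂˣ) := by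
  rw [classChar, dif_neg (show (I : Ideal (𝓞 E)) ≠ ⊥ from nonZeroDivisors.coe_ne_zero I)]

lemma classChar_mul (ψ : ClassGroup (𝓞 E) →* ℂˣ) (I J : Ideal (𝓞 E)) :
    classChar ψ (I * J) = classChar ψ I * classChar ψ J := by
  by_cases hI : I = ⊥
  · subst hI; simp [classChar]
  by_cases hJ : J = ⊥
  · subst hJ; simp [classChar]
  have h1 := classChar_coe ψ ⟨I, mem_nonZeroDivisors_iff_ne_zero.mpr hI⟩
  have h2 := classChar_coe ψ ⟨J, mem_nonZeroDivisors_iff_ne_zero.mpr hJ⟩
  have h3 := classChar_coe ψ (⟨I, mem_nonZeroDivisors_iff_ne_zero.mpr hI⟩ *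
    ⟨J, mem_nonZeroDivisors_iff_ne_zero.mpr hJ⟩)
  simp only [Submonoid.coe_mul] at h1 h2 h3
  rw [h1, h2, h3, map_mul, map_mul, Units.val_mul]

lemma classChar_span_singleton (ψ : ClassGroup (𝓞 E) →* ℂˣ) {x : 𝓞 E} (hx : x ≠ 0) :
    classChar ψ (Ideal.span {x}) = 1 := by
  rw [classChar, dif_neg (by simpa using hx), (ClassGroup.mk0_eq_one_iff _).mpr ⟨x, rfl⟩, map_one,
    Units.val_one]

lemma norm_units_eq_one {z : ℂˣ} {n : ℕ} (hn : n ≠ 0) (hz : z ^ n = 1) : ‖(z : ℂ)‖ = 1 :=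
  Complex.norm_eq_one_of_pow_eq_one (by rw [← Units.val_pow_eq_pow_val, hz, Units.val_one]) hn

end Aux

theorem exists_pow_eq_of_norm_ker {E : Type*} [Field E] [NumberField E] [IsTotallyComplex E]
    {m : ℕ} [NeZero m] (hm : 1 < m)
    {p : ℕ} (hp : p.Prime) (hp2 : p ≠ 2)
    (ψ : ClassGroup (𝓞 E) →* ℂˣ) (hψ : ψ ^ p = 1)
    (h : (ZMod m)ˣ →* ℂˣ) (hneg : h (-1) = 1)
    (hh : ∀ (R : (Ideal (𝓞 E))⁰), (R : Ideal (𝓞 E)).IsPrime →
      ∀ hc : (Ideal.absNorm (R : Ideal (𝓞 E))).Coprime m, h (ZMod.unitOfCoprime _ hc) ^ p = 1)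
    (M : Type*) [Field M] [NumberField M] [Algebra E M] (hdeg : Module.finrank E M ≤ p)
    (hM : ∀ W : Ideal (𝓞 M), (Ideal.absNorm W).Prime →
      ∀ hc : (Ideal.absNorm W).Coprime m, h (ZMod.unitOfCoprime _ hc) = 1)
    (hker : ∀ (R : (Ideal (𝓞 E))⁰), (R : Ideal (𝓞 E)).IsPrime →
      ∀ hc : (Ideal.absNorm (R : Ideal (𝓞 E))).Coprime m,
        h (ZMod.unitOfCoprime _ hc) = 1 → ψ (ClassGroup.mk0 R) = 1) :
    ∃ j : ℕ, ∀ (R : (Ideal (𝓞 E))⁰), (R : Ideal (𝓞 E)).IsPrime →
      ∀ hc : (Ideal.absNorm (R : Ideal (𝓞 E))).Coprime m,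
        ψ (ClassGroup.mk0 R) = h (ZMod.unitOfCoprime _ hc) ^ j := by
  classical
  by_contra hcon
  push Not at hcon
  have : Fact p.Prime := ⟨hp⟩
  let H : MulChar (ZMod m) ℂ := MulChar.ofUnitHom h
  have hHu : ∀ u : (ZMod m)ˣ, H (u : ZMod m) = h u := fun u => MulChar.ofUnitHom_coe h u
  have hHc : ∀ (R : Ideal (𝓞 E)) (hc : (Ideal.absNorm R).Coprime m),
      H ((Ideal.absNorm R : ℕ) : ZMod m) = h (ZMod.unitOfCoprime _ hc) := fun R hc => by
    rw [← hHu, ZMod.coe_unitOfCoprime]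
  let χ : Fin p × Fin p → Ideal (𝓞 E) → ℂ := fun i I =>
    classChar ψ I ^ (i.1 : ℕ) * (H ^ (i.2 : ℕ)) ((Ideal.absNorm I : ℕ) : ZMod m)
  let 𝔪 : Ideal (𝓞 E) := Ideal.span {(m : 𝓞 E)}
  have h𝔪 : 𝔪 ≠ ⊥ := by
    simpa [𝔪] using (NeZero.ne m)
  have hbotcop : ¬ (Ideal.absNorm (⊥ : Ideal (𝓞 E))).Coprime m := by
    simp [Nat.coprime_zero_left]; omega
  have hmul : ∀ i I J, χ i (I * J) = χ i I * χ i J := fun i I J => by
    simp only [χ, classChar_mul, map_mul, Nat.cast_mul, mul_pow]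
    ring
  have hone : ∀ i, χ i ⊤ = 1 := fun i => by
    have htop : classChar ψ (⊤ : Ideal (𝓞 E)) = 1 := by
      rw [← Ideal.span_singleton_one]
      exact classChar_span_singleton ψ one_ne_zero
    simp [χ, htop]
  have hzero : ∀ i I, ¬ IsCoprime I 𝔪 → χ i I = 0 := fun i I hI => by
    rw [← coprime_absNorm_iff_isCoprime, ← ZMod.isUnit_iff_coprime] at hI
    simp only [χ, MulChar.map_nonunit _ hI, mul_zero]
  have hnorm : ∀ i I, IsCoprime I 𝔪 → ‖χ i I‖ = 1 := fun i I hI => by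
    rw [← coprime_absNorm_iff_isCoprime] at hI
    have hI0 : I ≠ ⊥ := fun h0 => hbotcop (h0 ▸ hI)
    have h1 : ‖classChar ψ I‖ = 1 := by
      rw [classChar, dif_neg hI0]
      exact norm_units_eq_one hp.ne_zero (by rw [← MonoidHom.pow_apply, hψ, MonoidHom.one_apply])
    have h2 : ‖(H ^ (i.2 : ℕ)) ((Ideal.absNorm I : ℕ) : ZMod m)‖ = 1 := by
      rw [← ZMod.coe_unitOfCoprime _ hI]
      refine Complex.norm_eq_one_of_pow_eq_one ?_ (n := Fintype.card (ZMod m)ˣ) Fintype.card_ne_zero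
      rw [← map_pow, ← Units.val_pow_eq_pow_val, pow_card_eq_one, Units.val_one, MulChar.map_one]
    simp [χ, h1, h2]
  have hle : ∀ i I, ‖χ i I‖ ≤ 1 := fun i I => by
    by_cases hI : IsCoprime I 𝔪
    · exact (hnorm i I hI).le
    · simp [hzero i I hI]
  have hray : ∀ i, ∀ x y : 𝓞 E, x ≠ 0 → y ≠ 0 → x - y ∈ 𝔪 →
      χ i (Ideal.span {x}) = χ i (Ideal.span {y}) := by
    intro i x y hx hy hxy
    have hHneg : H (-1 : ZMod m) = 1 := by
      rw [show (-1 : ZMod m) = ((-1 : (ZMod m)ˣ) : ZMod m) by simp, hHu, hneg, Units.val_one]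
    have habs : ∀ w : 𝓞 E, (H ^ (i.2 : ℕ)) ((Ideal.absNorm (Ideal.span {w}) : ℕ) : ZMod m) =
        (H ^ (i.2 : ℕ)) ((Algebra.norm ℤ w : ℤ) : ZMod m) := by
      intro w
      rw [Ideal.absNorm_span_singleton]
      rcases Int.natAbs_eq (Algebra.norm ℤ w) with e | e
      · conv_rhs => rw [e, Int.cast_natCast]
      · conv_rhs => rw [e, Int.cast_neg, Int.cast_natCast, ← neg_one_mul, map_mul]
        rw [← Units.val_one, ← Units.val_neg, MulChar.pow_apply_coe, hHu, hneg]
        simp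
    simp only [χ]
    rw [classChar_span_singleton ψ hx, classChar_span_singleton ψ hy, habs, habs,
      norm_intCast_congr hxy]
  -- every nontrivial character has a bounded L-series
  have hne : ∀ i : Fin p × Fin p, i ≠ (⟨0, hp.pos⟩, ⟨0, hp.pos⟩) →
      ∃ I, IsCoprime I 𝔪 ∧ χ i I ≠ 1 := by
    rintro ⟨a, b⟩ hab
    by_contra hall
    push Not at hall
    have hR : ∀ (R : (Ideal (𝓞 E))⁰), ∀ hc : (Ideal.absNorm (R : Ideal (𝓞 E))).Coprime m,
        ψ (ClassGroup.mk0 R) ^ (a : ℕ) * h (ZMod.unitOfCoprime _ hc) ^ (b : ℕ) = 1 := by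
      intro R hc
      have h1 := hall R ((coprime_absNorm_iff_isCoprime _).mp hc)
      simp only [χ] at h1
      rw [← ZMod.coe_unitOfCoprime _ hc, MulChar.pow_apply_coe, hHu, classChar_coe] at h1
      ext
      simpa using h1
    by_cases ha : (a : ℕ) = 0
    · have hb : (b : ℕ) ≠ 0 := fun hb => hab (Prod.ext (Fin.ext ha) (Fin.ext hb))
      obtain ⟨R, hRp, hc, hR0⟩ := hcon 0
      rw [pow_zero] at hR0
      refine hR0 (hker R hRp hc ?_)
      have h1 := hR R hc
      rw [ha, pow_zero, one_mul] at h1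
      rw [← orderOf_eq_one_iff]
      exact Nat.eq_one_of_dvd_coprimes ((Nat.coprime_of_lt_prime hb b.2 hp).symm)
        (orderOf_dvd_of_pow_eq_one h1) (orderOf_dvd_of_pow_eq_one (hh R hRp hc))
    · obtain ⟨c, hc'⟩ := Nat.exists_mul_mod_eq_one_of_coprime ((Nat.coprime_of_lt_prime ha a.2 hp).symm) hp.one_lt
      obtain ⟨R, hRp, hc, hR0⟩ := hcon (c * (p - 1) * b)
      refine hR0 ?_
      have h1 := hR R hc
      set u := ψ (ClassGroup.mk0 R) with hu_def
      set v := h (ZMod.unitOfCoprime _ hc) with hv_def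
      have hu : u ^ p = 1 := by rw [hu_def, ← MonoidHom.pow_apply, hψ, MonoidHom.one_apply]
      have hv : v ^ p = 1 := hh R hRp hc
      have hua : u ^ (a : ℕ) = v ^ ((p - 1) * (b : ℕ)) := by
        have hvb : v ^ ((b : ℕ)) * v ^ ((p - 1) * (b : ℕ)) = 1 := by
          rw [← pow_add, show (b : ℕ) + (p - 1) * b = p * b by
            rw [Nat.sub_mul, one_mul, Nat.add_sub_cancel' (Nat.le_mul_of_pos_left _ hp.pos)],
            pow_mul, hv, one_pow]
        rw [eq_inv_of_mul_eq_one_left h1, ← eq_inv_of_mul_eq_one_right hvb]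
      have hu1 : u = u ^ ((a : ℕ) * c) := by
        conv_lhs => rw [← pow_one u, ← hc'.2]
        exact (pow_eq_pow_mod _ hu).symm
      rw [hu1, pow_mul, hua, ← pow_mul]
      congr 1
      ring
  have hpos : ∀ P : Ideal (𝓞 E), P.IsPrime → P ≠ ⊥ → ∀ k : ℕ, 0 < k →
      (∑ i, χ i P ^ k).im = 0 ∧ 0 ≤ (∑ i, χ i P ^ k).re := by
    intro P hP hP0 k hk
    by_cases hc : (Ideal.absNorm P).Coprime m
    · let R : (Ideal (𝓞 E))⁰ := ⟨P, mem_nonZeroDivisors_iff_ne_zero.mpr hP0⟩
      set u : ℂ := ((ψ (ClassGroup.mk0 R) : ℂˣ) : ℂ) ^ k with hu_def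
      set v : ℂ := ((h (ZMod.unitOfCoprime _ hc) : ℂˣ) : ℂ) ^ k with hv_def
      have hu : u ^ p = 1 := by
        rw [hu_def, pow_right_comm, ← Units.val_pow_eq_pow_val, ← MonoidHom.pow_apply, hψ]
        simp
      have hv : v ^ p = 1 := by
        rw [hv_def, pow_right_comm, ← Units.val_pow_eq_pow_val, hh R hP hc]
        simp
      have key : ∀ z : ℂ, z ^ p = 1 →
          (∑ t : Fin p, z ^ (t : ℕ)).im = 0 ∧ 0 ≤ (∑ t : Fin p, z ^ (t : ℕ)).re := by
        intro z hz
        rw [Fin.sum_univ_eq_sum_range (fun t => z ^ t)]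
        by_cases hz1 : z = 1
        · simp [hz1]
        · rw [geom_sum_eq hz1, hz]
          simp
      have hsum : ∑ i, χ i P ^ k = (∑ a : Fin p, u ^ (a : ℕ)) * ∑ b : Fin p, v ^ (b : ℕ) := by
        rw [Fintype.sum_prod_type, Finset.sum_mul_sum]
        refine Finset.sum_congr rfl fun a _ => Finset.sum_congr rfl fun b _ => ?_
        simp only [χ]
        rw [classChar_coe ψ R, ← ZMod.coe_unitOfCoprime _ hc, MulChar.pow_apply_coe, hHu, mul_pow,
          hu_def, hv_def, pow_right_comm _ k, pow_right_comm _ k]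
      obtain ⟨k1, k2⟩ := key u hu
      obtain ⟨k3, k4⟩ := key v hv
      rw [hsum, Complex.mul_im, Complex.mul_re, k1, k3]
      exact ⟨by simp, by simpa using mul_nonneg k2 k4⟩
    · rw [coprime_absNorm_iff_isCoprime] at hc
      simp [hzero _ P hc, zero_pow hk.ne']
  -- split primes of degree one
  let Sp : Set (HeightOneSpectrum (𝓞 E)) := {v | (Ideal.absNorm v.asIdeal).Prime ∧
    ∃ hc : (Ideal.absNorm v.asIdeal).Coprime m, h (ZMod.unitOfCoprime _ hc) = 1}
  have hSp : ∀ i, ∀ v ∈ Sp, χ i v.asIdeal = 1 := by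
    rintro i v ⟨-, hc, hv⟩
    have h1 := hker ⟨v.asIdeal, mem_nonZeroDivisors_iff_ne_zero.mpr v.ne_bot⟩ v.isPrime hc hv
    simp only [χ]
    rw [classChar, dif_neg v.ne_bot, h1, ← ZMod.coe_unitOfCoprime _ hc, MulChar.pow_apply_coe,
      hHu, hv]
    simp
  obtain ⟨C₁, hC₁⟩ := card_mul_tsum_le_log ((⟨0, hp.pos⟩, ⟨0, hp.pos⟩) : Fin p × Fin p) χ hmul hone
    hle hpos (fun i hi => exists_bound_tsum_rayChar 𝔪 h𝔪 (χ i) (hmul i) (hzero i) (hnorm i)
      (hray i) (hne i hi)) Sp hSp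
  obtain ⟨CM, hCM⟩ := Density.exists_abs_tsum_idealCount_sub_log_le M
  obtain ⟨CE, hCE⟩ := Density.exists_abs_tsum_idealCount_sub_log_le E
  let cnt : Nat.Primes → ℕ := fun l => Nat.card {v : Sp // Ideal.absNorm v.1.asIdeal = l}
  let Tm : Finset Nat.Primes := m.primeFactors.subtype Nat.Prime
  let B : ℝ := ∑ l ∈ Tm, (Density.idealCount M l : ℝ)
  have hev : ∀ᶠ s in 𝓝[>] (1 : ℝ), s ∈ Set.Ioc (1 : ℝ) 2 ∧
      C₁ + (p : ℝ) * (CM + B) < ((p : ℝ) - 1) * Real.log (1 / (s - 1)) := by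
    have h1 : ∀ᶠ s in 𝓝[>] (1 : ℝ), s ∈ Set.Ioc (1 : ℝ) 2 :=
      Ioc_mem_nhdsGT one_lt_two
    have h2 : Tendsto (fun s : ℝ => Real.log (1 / (s - 1))) (𝓝[>] 1) atTop := by
      refine Real.tendsto_log_atTop.comp ?_
      have h3 : Tendsto (fun s : ℝ => s - 1) (𝓝[>] 1) (𝓝[>] 0) := by
        refine tendsto_nhdsWithin_of_tendsto_nhds_of_eventually_within _ ?_ ?_
        · simpa using ((continuous_sub_right (1 : ℝ)).tendsto 1).mono_left nhdsWithin_le_nhds
        · filter_upwards [self_mem_nhdsWithin] with s hs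
          simpa using hs
      exact (tendsto_inv_nhdsGT_zero.comp h3).congr fun s => by simp
    have hp1 : (0 : ℝ) < (p : ℝ) - 1 := by
      have : (1 : ℝ) < p := by exact_mod_cast hp.one_lt
      linarith
    exact h1.and ((h2.const_mul_atTop hp1).eventually_gt_atTop _)
  obtain ⟨s, ⟨hs, hbig⟩, hsM, hsE⟩ := (hev.and (hCM.and hCE)).exists
  have hsum₁ := hC₁ s hs
  -- regroup the sum over `Sp` by the norm
  have hfinV : ∀ l : Nat.Primes, Finite {v : Sp // Ideal.absNorm v.1.asIdeal = l} := fun l => by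
    have := (Ideal.finite_setOfPred_absNorm_eq (S := 𝓞 E) (l : ℕ)).to_subtype
    exact Finite.of_injective (fun v => (⟨v.1.1.asIdeal, v.2⟩ :
      {I : Ideal (𝓞 E) | Ideal.absNorm I = (l : ℕ)})) fun v w hvw =>
        Subtype.ext (Subtype.ext (HeightOneSpectrum.ext (congrArg Subtype.val hvw)))
  have hcntE : ∀ l, cnt l ≤ Density.idealCount E l := fun l => by
    have : Finite {I : Ideal (𝓞 E) // Ideal.absNorm I = (l : ℕ)} :=
      (Ideal.finite_setOfPred_absNorm_eq (S := 𝓞 E) (l : ℕ)).to_subtype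
    exact Nat.card_le_card_of_injective (fun v => (⟨v.1.1.asIdeal, v.2⟩ :
      {I : Ideal (𝓞 E) // Ideal.absNorm I = (l : ℕ)})) fun v w hvw =>
        Subtype.ext (Subtype.ext (HeightOneSpectrum.ext (congrArg Subtype.val hvw)))
  have hsumc : Summable fun l : Nat.Primes => (cnt l : ℝ) * (l : ℝ) ^ (-s) :=
    hsE.1.of_nonneg_of_le (fun l => by positivity) fun l =>
      mul_le_mul_of_nonneg_right (by exact_mod_cast hcntE l) (by positivity)
  let eSp : ((l : Nat.Primes) × {v : Sp // Ideal.absNorm v.1.asIdeal = l}) ≃ Sp :=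
    { toFun := fun x => x.2.1
      invFun := fun v => ⟨⟨Ideal.absNorm v.1.asIdeal, v.2.1⟩, v, rfl⟩
      left_inv := by
        rintro ⟨⟨l, hl⟩, v, hv⟩
        obtain rfl : Ideal.absNorm v.1.asIdeal = l := hv
        rfl
      right_inv := fun v => rfl }
  have hTsum : HasSum (fun v : Sp => (Ideal.absNorm v.1.asIdeal : ℝ) ^ (-s))
      (∑' l : Nat.Primes, (cnt l : ℝ) * (l : ℝ) ^ (-s)) := by
    rw [← eSp.hasSum_iff]
    have hterm : ∀ (l : Nat.Primes) (v : {v : Sp // Ideal.absNorm v.1.asIdeal = l}),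
        (Ideal.absNorm (eSp ⟨l, v⟩).1.asIdeal : ℝ) ^ (-s) = (l : ℝ) ^ (-s) := fun l v => by
      change (Ideal.absNorm v.1.1.asIdeal : ℝ) ^ (-s) = _
      rw [v.2]
    have hfib : ∀ l : Nat.Primes, HasSum (fun v : {v : Sp // Ideal.absNorm v.1.asIdeal = l} =>
        (Ideal.absNorm (eSp ⟨l, v⟩).1.asIdeal : ℝ) ^ (-s)) ((cnt l : ℝ) * (l : ℝ) ^ (-s)) := by
      intro l
      have := hfinV l
      have := Fintype.ofFinite {v : Sp // Ideal.absNorm v.1.asIdeal = l}
      simp only [hterm]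
      convert hasSum_fintype (fun _ : {v : Sp // Ideal.absNorm v.1.asIdeal = l} => (l : ℝ) ^ (-s))
      simp [cnt, Nat.card_eq_fintype_card]
    have hS : Summable (fun x => (Ideal.absNorm (eSp x).1.asIdeal : ℝ) ^ (-s)) := by
      rw [summable_sigma_of_nonneg (fun x => by positivity)]
      exact ⟨fun l => (hfib l).summable, hsumc.congr fun l => ((hfib l).tsum_eq).symm⟩
    have := hS.hasSum.sigma hfib
    rw [this.tsum_eq]
    exact hS.hasSum
  rw [hTsum.tsum_eq] at hsum₁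
  -- degree-one primes of `M` lie over `Sp`
  have hMle : ∀ l : Nat.Primes,
      (Density.idealCount M l : ℝ) * (l : ℝ) ^ (-s) ≤
        (p : ℝ) * ((cnt l : ℝ) * (l : ℝ) ^ (-s)) +
          (if l ∈ Tm then (Density.idealCount M l : ℝ) else 0) := by
    intro l
    by_cases hlm : l ∈ Tm
    · rw [if_pos hlm]
      have h1 : (l : ℝ) ^ (-s) ≤ 1 :=
        Real.rpow_le_one_of_one_le_of_nonpos (by exact_mod_cast l.2.one_lt.le) (by linarith [hs.1])
      have h2 : 0 ≤ (p : ℝ) * ((cnt l : ℝ) * (l : ℝ) ^ (-s)) := by positivity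
      nlinarith [mul_le_mul_of_nonneg_left h1 (Nat.cast_nonneg (α := ℝ) (Density.idealCount M l))]
    · rw [if_neg hlm, add_zero, ← mul_assoc]
      refine mul_le_mul_of_nonneg_right ?_ (by positivity)
      have hcop : (l : ℕ).Coprime m := l.2.coprime_iff_not_dvd.mpr fun hd =>
        hlm (Finset.mem_subtype.mpr (Nat.mem_primeFactors.mpr ⟨l.2, hd, NeZero.ne m⟩))
      let A := {I : Ideal (𝓞 M) // Ideal.absNorm I = (l : ℕ)}
      let V := {v : Sp // Ideal.absNorm v.1.asIdeal = (l : ℕ)}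
      have := hfinV l
      have hAfin : Finite A := (Ideal.finite_setOfPred_absNorm_eq (S := 𝓞 M) (l : ℕ)).to_subtype
      have hmax : ∀ W : A, W.1.IsMaximal := fun W =>
        (Ideal.isPrime_of_irreducible_absNorm (W.2.symm ▸ l.2)).isMaximal fun h0 => by
          have hW2 := W.2
          rw [h0, Ideal.absNorm_bot] at hW2
          exact l.2.ne_zero hW2.symm
      have hmem : ∀ W : A, ∃ v : V, v.1.1.asIdeal = W.1.under (𝓞 E) := by
        intro W
        have := hmax W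
        have hRm : (W.1.under (𝓞 E)).IsMaximal := Ideal.isMaximal_comap_of_isIntegral_of_isMaximal W.1
        obtain ⟨f, hf, -, habs⟩ := exists_relNorm_eq_pow (K := E) W.1
        rw [W.2] at habs
        have hN : Ideal.absNorm (W.1.under (𝓞 E)) = (l : ℕ) := by
          rcases f with _ | _ | f
          · omega
          · simpa using habs.symm
          · exact absurd l.2 (habs ▸ Nat.Prime.not_prime_pow (by omega))
        let v : HeightOneSpectrum (𝓞 E) := ⟨W.1.under (𝓞 E), hRm.isPrime,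
          Ring.ne_bot_of_isMaximal_of_not_isField hRm (RingOfIntegers.not_isField E)⟩
        have hvN : Ideal.absNorm v.asIdeal = (l : ℕ) := hN
        have hcW : (Ideal.absNorm W.1).Coprime m := by rw [W.2]; exact hcop
        have h1 := hM W.1 (by rw [W.2]; exact l.2) hcW
        refine ⟨⟨⟨v, by rw [hvN]; exact l.2, by rw [hvN]; exact hcop, ?_⟩, hN⟩, rfl⟩
        convert h1 using 2
        exact Units.ext (by simp [hN, W.2, v])
      choose f hf using hmem
      have := Fintype.ofFinite A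
      have := Fintype.ofFinite V
      have hfib : ∀ v : V, (Finset.univ.filter fun W => f W = v).card ≤ p := by
        intro v
        refine le_trans ?_ hdeg
        set T := Finset.univ.filter fun W => f W = v
        have hdvd : ∏ W ∈ T, W.1 ∣ v.1.1.asIdeal.map (algebraMap (𝓞 E) (𝓞 M)) := by
          rw [show ∏ W ∈ T, W.1 = ∏ I ∈ T.map ⟨Subtype.val, Subtype.val_injective⟩, I by
            rw [Finset.prod_map]; rfl]
          refine Finset.prod_primes_dvd _ (fun I hI => ?_) fun I hI => ?_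
          · obtain ⟨W, -, rfl⟩ := Finset.mem_map.mp hI
            have := hmax W
            exact Ideal.prime_of_isPrime
              (Ring.ne_bot_of_isMaximal_of_not_isField this (RingOfIntegers.not_isField M))
              this.isPrime
          · obtain ⟨W, hW, rfl⟩ := Finset.mem_map.mp hI
            rw [Ideal.dvd_iff_le, Function.Embedding.coeFn_mk, ← (Finset.mem_filter.mp hW).2, hf W]
            exact Ideal.map_comap_le
        have h1 := map_dvd (Ideal.absNorm (S := 𝓞 M)) hdvd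
        rw [map_prod, Finset.prod_congr rfl (fun W _ => W.2), Finset.prod_const,
          Ideal.absNorm_algebraMap, v.2, ← IsFractionRing.finrank_eq (𝓞 E) E (𝓞 M) M] at h1
        exact (Nat.pow_dvd_pow_iff_le_right l.2.one_lt).mp h1
      have hcard : Fintype.card A ≤ p * Fintype.card V := by
        rw [← Finset.card_univ, ← Finset.card_univ]
        exact Finset.card_le_mul_card_image_of_maps_to (f := f) (fun _ _ => Finset.mem_univ _) _
          (fun v _ => hfib v)
      have hcast : Density.idealCount M l ≤ p * cnt l := by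
        simpa [Density.idealCount, cnt, A, V, Nat.card_eq_fintype_card] using hcard
      exact_mod_cast hcast
  have hlow : (∑' l : Nat.Primes, (Density.idealCount M l : ℝ) * (l : ℝ) ^ (-s)) ≤
      (p : ℝ) * (∑' l : Nat.Primes, (cnt l : ℝ) * (l : ℝ) ^ (-s)) + B := by
    have hite : HasSum (fun l : Nat.Primes => if l ∈ Tm then (Density.idealCount M l : ℝ) else 0) B := by
      have h0 : HasSum (fun l : Nat.Primes => if l ∈ Tm then (Density.idealCount M l : ℝ) else 0)
          (∑ l ∈ Tm, if l ∈ Tm then (Density.idealCount M l : ℝ) else 0) :=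
        hasSum_sum_of_ne_finset_zero (L := SummationFilter.unconditional _) fun l hl => if_neg hl
      rwa [Finset.sum_congr rfl fun l hl => if_pos hl] at h0
    exact hasSum_le hMle hsM.1.hasSum ((hsumc.hasSum.mul_left (p : ℝ)).add hite)
  obtain ⟨hlo, -⟩ := abs_le.mp hsM.2
  rw [Fintype.card_prod, Fintype.card_fin, Nat.cast_mul] at hsum₁
  have h1 : (p : ℝ) * (Real.log (1 / (s - 1)) - CM - B) ≤
      (p : ℝ) * ((p : ℝ) * ∑' l : Nat.Primes, (cnt l : ℝ) * (l : ℝ) ^ (-s)) :=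
    mul_le_mul_of_nonneg_left (by linarith) (Nat.cast_nonneg p)
  linarith

end Fermat.Agent.ClassField.Recip
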