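import Fermat.Agent.ClassField.Recip.Basic
import Fermat.Agent.ClassField.Recip.Frob
import Fermat.Agent.ClassField.Recip.AuxPrime
import Fermat.Agent.ClassField.Recip.EvenChar
import Fermat.Agent.ClassField.Recip.Cyclo
import Fermat.Agent.ClassField.Recip.RayChar
import Fermat.Agent.Density.FrobeniusDensity

/-!
# Artin's crossing argument

For `L/K` cyclic of odd prime degree `p` with trivial inertia, a faithful character `θ` of
`Gal(L/K)` and a class character `ψ` of order `p` killing split primes, the value `ψ(P)` is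
`θ(σ_P) ^ j` with one exponent `j` for every two inert primes.
-/

set_option autoImplicit false

noncomputable section

open NumberField
open scoped Pointwise nonZeroDivisors

namespace Fermat.Agent.ClassField.Recip

/-- A nonzero prime as an element of `(Ideal R)⁰`. -/
def ideal0 {F : Type*} [Field F] [NumberField F] (P : Ideal (𝓞 F)) [hP : P.IsMaximal] :
    (Ideal (𝓞 F))⁰ :=
  ⟨P, mem_nonZeroDivisors_iff_ne_zero.mpr
    (Ring.ne_bot_of_isMaximal_of_not_isField hP (RingOfIntegers.not_isField F))⟩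

@[simp] lemma coe_ideal0 {F : Type*} [Field F] [NumberField F] (P : Ideal (𝓞 F)) [P.IsMaximal] :
    (ideal0 P : Ideal (𝓞 F)) = P := rfl

lemma isTotallyComplex_of_algebra (K E : Type*) [Field K] [Field E] [Algebra K E]
    [IsTotallyComplex K] : IsTotallyComplex E := by
  refine ⟨fun w => ?_⟩
  rw [← InfinitePlace.not_isReal_iff_isComplex]
  intro hw
  exact InfinitePlace.not_isReal_iff_isComplex.mpr (IsTotallyComplex.isComplex _)
    (InfinitePlace.IsReal.comap (algebraMap K E) hw)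

variable {K L : Type*} [Field K] [NumberField K] [Field L] [NumberField L] [Algebra K L]
  [IsGalois K L]

/-- If every residue at `R` is fixed by `x ↦ x ^ n`, then `N R ≤ n`. -/
lemma absNorm_le_of_forall_pow_sub_mem {F : Type*} [Field F] [NumberField F] (R : Ideal (𝓞 F))
    [R.IsMaximal] {n : ℕ} (hn : 1 < n) (h : ∀ x : 𝓞 F, x ^ n - x ∈ R) :
    Ideal.absNorm R ≤ n := by
  classical
  have hfin := finite_quotient_of_isMaximal R
  letI := Ideal.Quotient.field R
  letI : Fintype (𝓞 F ⧸ R) := Fintype.ofFinite _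
  rw [← natCard_quotient_eq_absNorm, Nat.card_eq_fintype_card]
  have hne : (Polynomial.X ^ n - Polynomial.X : Polynomial (𝓞 F ⧸ R)) ≠ 0 :=
    FiniteField.X_pow_card_sub_X_ne_zero _ hn
  refine (Polynomial.card_le_degree_of_subset_roots (Z := Finset.univ)
    (p := Polynomial.X ^ n - Polynomial.X) fun x _ => ?_).trans ?_
  · rw [Polynomial.mem_roots hne]
    obtain ⟨a, rfl⟩ := Ideal.Quotient.mk_surjective x
    simp [sub_eq_zero, ← map_pow, Ideal.Quotient.eq, h a]
  · exact (FiniteField.X_pow_card_sub_X_natDegree_eq _ hn).le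

lemma one_lt_absNorm {F : Type*} [Field F] [NumberField F] (P : Ideal (𝓞 F)) [hP : P.IsMaximal] :
    1 < Ideal.absNorm P := by
  have h0 : Ideal.absNorm P ≠ 0 := by
    rw [Ne, Ideal.absNorm_eq_zero_iff]
    exact Ring.ne_bot_of_isMaximal_of_not_isField hP (RingOfIntegers.not_isField F)
  have h1 : Ideal.absNorm P ≠ 1 := by
    rw [Ne, Ideal.absNorm_eq_one_iff]
    exact hP.ne_top
  omega

/-- `R` has residue degree one over `K` if the residues are fixed by `x ↦ x ^ N P`. -/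
lemma absNorm_eq_absNorm_under {E : Type*} [Field E] [NumberField E] [Algebra K E]
    (R : Ideal (𝓞 E)) [R.IsMaximal]
    (h : ∀ x : 𝓞 E, x ^ Ideal.absNorm (R.under (𝓞 K)) - x ∈ R) :
    Ideal.absNorm R = Ideal.absNorm (R.under (𝓞 K)) ∧
      Ideal.relNorm (𝓞 K) R = R.under (𝓞 K) := by
  have : (R.under (𝓞 K)).IsMaximal := Ideal.isMaximal_comap_of_isIntegral_of_isMaximal R
  obtain ⟨f, hf, hrel, habs⟩ := exists_relNorm_eq_pow (K := K) R
  have hle := absNorm_le_of_forall_pow_sub_mem R (one_lt_absNorm _) h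
  rw [habs] at hle
  have hle' : f ≤ 1 := by
    by_contra hlt
    have := Nat.pow_lt_pow_right (one_lt_absNorm (R.under (𝓞 K))) (not_le.mp hlt)
    rw [pow_one] at this
    omega
  obtain rfl : f = 1 := by omega
  exact ⟨by rw [habs, pow_one], by rw [hrel, pow_one]⟩

variable {p : ℕ} (hp : p.Prime) (hp2 : p ≠ 2) (hcard : Nat.card (L ≃ₐ[K] L) = p)
  (hunr : ∀ Q : Ideal (𝓞 L), Q.IsMaximal → Q.inertia (L ≃ₐ[K] L) = ⊥)
  (θ : (L ≃ₐ[K] L) →* ℂˣ) (hθ : Function.Injective θ)
  (ψ : ClassGroup (𝓞 K) →* ℂˣ) (hψp : ψ ^ p = 1)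
  (hψ : ∀ (Q : Ideal (𝓞 L)) [Q.IsMaximal] [(Q.under (𝓞 K)).IsMaximal],
    IsArithFrobAt (𝓞 K) (1 : L ≃ₐ[K] L) Q →
      ψ (ClassGroup.mk0 (ideal0 (Q.under (𝓞 K)))) = 1)

omit [NumberField K] [NumberField L] in
include hp hcard in
lemma pow_card_eq_one (σ : L ≃ₐ[K] L) : σ ^ p = 1 := by
  have : Finite (L ≃ₐ[K] L) := Nat.finite_of_card_ne_zero (hcard ▸ hp.ne_zero)
  rw [← hcard]
  exact pow_card_eq_one'

variable {M : Type*} [Field M] [NumberField M] [Algebra K M] [Algebra L M] [IsScalarTower K L M]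
  [IsGalois K M]

include hp hp2 hcard hunr hθ hψp hψ in
/-- On `E = M^H`, where the Frobenius in `L` is read off from the norm modulo `m`, the character
`ψ ∘ N` is a power of the Artin character. -/
lemma exists_relation [IsTotallyComplex K] (H : Subgroup (M ≃ₐ[K] M)) {m : ℕ} [NeZero m]
    (hm : 1 < m) {ζ : M}
    (hζ : IsPrimitiveRoot ζ m) (h : (ZMod m)ˣ →* ℂˣ) (hneg : h (-1) = 1)
    (hH : ∀ g ∈ H, θ (g.restrictNormal L) = h (hζ.autToPow K g)) :
    ∃ j : ℕ, ∀ (R : Ideal (𝓞 (IntermediateField.fixedField H))) [R.IsMaximal]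
      [(R.under (𝓞 K)).IsMaximal] (Q : Ideal (𝓞 L)) [Q.IsMaximal] (σ : L ≃ₐ[K] L) (f : ℕ),
      Q.under (𝓞 K) = R.under (𝓞 K) → IsArithFrobAt (𝓞 K) σ Q →
      (Ideal.absNorm R).Coprime m →
      Ideal.absNorm R = Ideal.absNorm (R.under (𝓞 K)) ^ f →
        ψ (ClassGroup.mk0 (ideal0 (R.under (𝓞 K)))) ^ f = (θ σ ^ f) ^ j := by
  classical
  let E := IntermediateField.fixedField H
  have hcomm : ∀ a b : L ≃ₐ[K] L, a * b = b * a := by
    have : Fact p.Prime := ⟨hp⟩
    have := isCyclic_of_prime_card (α := L ≃ₐ[K] L) hcard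
    exact fun a b => mul_comm' a b
  have key : ∀ (R : Ideal (𝓞 E)) [R.IsMaximal] (Q : Ideal (𝓞 L)) [Q.IsMaximal]
      (σ : L ≃ₐ[K] L) (f : ℕ), Q.under (𝓞 K) = R.under (𝓞 K) → IsArithFrobAt (𝓞 K) σ Q →
      ∀ hc : (Ideal.absNorm R).Coprime m,
      Ideal.absNorm R = Ideal.absNorm (R.under (𝓞 K)) ^ f →
        θ σ ^ f = h (ZMod.unitOfCoprime _ hc) := by
    intro R _ Q _ σ f hQR hσ hc hf
    obtain ⟨W, hWm, hWo⟩ := Ideal.exists_maximal_ideal_liesOver_of_isIntegral (S := 𝓞 M) R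
    obtain ⟨g, hg⟩ := exists_isArithFrobAt (K := E) W
    let g' : M ≃ₐ[K] M := g.restrictScalars K
    have hg'H : g' ∈ H := by
      rw [← IntermediateField.fixingSubgroup_fixedField H]
      intro x
      exact g.commutes x
    have hg' : ∀ x : 𝓞 M, g' • x - x ^ Ideal.absNorm R ∈ W := fun x => by
      have := frob_smul_sub_pow_mem hg 1 x
      rw [pow_one, pow_one, ← hWo.over] at this
      exact this
    have : (W.under (𝓞 L)).IsMaximal := Ideal.isMaximal_comap_of_isIntegral_of_isMaximal W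
    have hWK : W.under (𝓞 K) = R.under (𝓞 K) := by
      rw [hWo.over, Ideal.under_under]
    have hQW : Q.under (𝓞 K) = (W.under (𝓞 L)).under (𝓞 K) := by
      rw [Ideal.under_under, hWK, hQR]
    have hres := restrictNormal_eq_frob_pow (frob_of_under_eq hcomm hQW hσ)
      (hunr _ inferInstance) (n := Ideal.absNorm R) (f := f) hg' (by rw [hf, hWK])
    have hmW : (m : 𝓞 M) ∉ W := by
      intro hm
      have hmR : (m : 𝓞 E) ∈ R := by
        rw [hWo.over, Ideal.under_def, Ideal.mem_comap, map_natCast]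
        exact hm
      apply (inferInstance : R.IsMaximal).ne_top
      rw [Ideal.eq_top_iff_one]
      have hb : ((Ideal.absNorm R : ℕ) : 𝓞 E) ∈ R := Ideal.absNorm_mem R
      obtain ⟨a, b, hab⟩ := hc.isCoprime
      have : ((a * (Ideal.absNorm R : ℤ) + b * (m : ℤ) : ℤ) : 𝓞 E) ∈ R := by
        push_cast
        exact R.add_mem (R.mul_mem_left _ hb) (R.mul_mem_left _ hmR)
      rwa [hab, Int.cast_one] at this
    have hchi : hζ.autToPow K g' = ZMod.unitOfCoprime _ hc := by
      let z : 𝓞 M := hζ.toInteger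
      have hz : z ^ m = 1 := hζ.toInteger_isPrimitiveRoot.pow_eq_one
      have h1 : g • z = z ^ Nat.card (𝓞 E ⧸ W.under (𝓞 E)) := hg.apply_of_pow_eq_one hz hmW
      rw [← hWo.over, natCard_quotient_eq_absNorm] at h1
      have h2 : g' ζ = ζ ^ Ideal.absNorm R := by
        have := congrArg (fun y : 𝓞 M => (y : M)) h1
        exact this
      have h3 := hζ.autToPow_spec K g'
      rw [h2] at h3
      have h4 : (hζ.autToPow K g' : ZMod m).val ≡ Ideal.absNorm R [MOD m] := by
        rw [pow_eq_pow_mod _ hζ.pow_eq_one, pow_eq_pow_mod (Ideal.absNorm R) hζ.pow_eq_one] at h3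
        exact hζ.pow_inj (Nat.mod_lt _ (NeZero.pos m)) (Nat.mod_lt _ (NeZero.pos m)) h3
      apply Units.ext
      rw [ZMod.coe_unitOfCoprime]
      exact (ZMod.natCast_zmod_val _).symm.trans ((ZMod.natCast_eq_natCast_iff _ _ _).mpr h4)
    rw [← map_pow, ← hres, hH g' hg'H, hchi]
  let ψE : ClassGroup (𝓞 E) →* ℂˣ := ψ.comp (classNorm (𝓞 K) (𝓞 E))
  have hψE : ψE ^ p = 1 := by
    refine MonoidHom.ext fun c => ?_
    change ψ _ ^ p = 1
    rw [← MonoidHom.pow_apply, hψp, MonoidHom.one_apply]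
  have hψE_mk : ∀ (R : (Ideal (𝓞 E))⁰) [(R : Ideal (𝓞 E)).IsMaximal]
      [((R : Ideal (𝓞 E)).under (𝓞 K)).IsMaximal] (f : ℕ),
      Ideal.absNorm (R : Ideal (𝓞 E)) = Ideal.absNorm ((R : Ideal (𝓞 E)).under (𝓞 K)) ^ f →
      ψE (ClassGroup.mk0 R) = ψ (ClassGroup.mk0 (ideal0 ((R : Ideal (𝓞 E)).under (𝓞 K)))) ^ f := by
    intro R _ _ f hf
    obtain ⟨f', -, hrel, habs⟩ := exists_relNorm_eq_pow (K := K) (R : Ideal (𝓞 E))
    obtain rfl : f = f' := Nat.pow_right_injective (one_lt_absNorm _) (hf.symm.trans habs)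
    rw [MonoidHom.comp_apply, classNorm_mk0, ← map_pow, ← map_pow]
    congr 2
    exact Subtype.ext hrel
  have prime_data : ∀ (R : Ideal (𝓞 E)) [R.IsMaximal],
      ∃ (Q : Ideal (𝓞 L)) (_ : Q.IsMaximal) (σ : L ≃ₐ[K] L),
        Q.under (𝓞 K) = R.under (𝓞 K) ∧ IsArithFrobAt (𝓞 K) σ Q := by
    intro R _
    have : (R.under (𝓞 K)).IsMaximal := Ideal.isMaximal_comap_of_isIntegral_of_isMaximal R
    obtain ⟨Q, hQm, hQo⟩ :=
      Ideal.exists_maximal_ideal_liesOver_of_isIntegral (S := 𝓞 L) (R.under (𝓞 K))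
    obtain ⟨σ, hσ⟩ := exists_isArithFrobAt (K := K) Q
    exact ⟨Q, hQm, σ, hQo.over.symm, hσ⟩
  let ρ : (M ≃ₐ[K] M) →* (L ≃ₐ[K] L) := AlgEquiv.restrictNormalHom L
  let F : IntermediateField E M :=
    IntermediateField.extendScalars (F := E) (E := IntermediateField.fixedField (H ⊓ ρ.ker))
      (IntermediateField.fixedField_le inf_le_left)
  have hFH : F.restrictScalars K = IntermediateField.fixedField (H ⊓ ρ.ker) :=
    IntermediateField.extendScalars_restrictScalars _
  have hdeg : Module.finrank E F ≤ p := by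
    have h1 := IntermediateField.finrank_fixedField_eq_card (H ⊓ ρ.ker)
    have h2 := IntermediateField.finrank_fixedField_eq_card H
    have h3 : Nat.card H ≤ Nat.card (L ≃ₐ[K] L) * Nat.card (H ⊓ ρ.ker : Subgroup (M ≃ₐ[K] M)) := by
      let r : H →* (L ≃ₐ[K] L) := ρ.comp H.subtype
      have e : (H ⊓ ρ.ker : Subgroup (M ≃ₐ[K] M)) = (r.ker).map H.subtype := by
        ext x
        simp [r, Subgroup.mem_map, MonoidHom.mem_ker, and_comm]
      rw [e, Subgroup.card_map_of_injective H.subtype_injective]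
      have h4 := r.ker.index_mul_card
      rw [← h4, Subgroup.index_ker]
      exact Nat.mul_le_mul_right _ (Subgroup.card_le_card_group _)
    have h4 := Module.finrank_mul_finrank E F M
    have h5 : Module.finrank F M = Nat.card (H ⊓ ρ.ker : Subgroup (M ≃ₐ[K] M)) := h1
    rw [h5, show Module.finrank E M = Nat.card H from h2] at h4
    rw [hcard, ← h4] at h3
    exact Nat.le_of_mul_le_mul_right h3 Nat.card_pos
  have hM : ∀ W₀ : Ideal (𝓞 F), (Ideal.absNorm W₀).Prime →
      ∀ hc : (Ideal.absNorm W₀).Coprime m, h (ZMod.unitOfCoprime _ hc) = 1 := by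
    intro W₀ hℓ hc
    have : W₀.IsMaximal := (Ideal.isPrime_of_irreducible_absNorm hℓ).isMaximal fun h0 => by
      rw [h0, Ideal.absNorm_bot] at hℓ
      exact Nat.not_prime_zero hℓ
    let R : Ideal (𝓞 E) := W₀.under (𝓞 E)
    have : R.IsMaximal := Ideal.isMaximal_comap_of_isIntegral_of_isMaximal W₀
    have : (R.under (𝓞 K)).IsMaximal := Ideal.isMaximal_comap_of_isIntegral_of_isMaximal R
    obtain ⟨f₁, hf₁, -, habs₁⟩ := exists_relNorm_eq_pow (K := E) W₀
    obtain ⟨f₂, hf₂, -, habs₂⟩ := exists_relNorm_eq_pow (K := K) R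
    have hR : Ideal.absNorm W₀ = Ideal.absNorm R := by
      rw [show R = W₀.under (𝓞 E) from rfl]
      have h' := habs₁ ▸ hℓ
      rcases f₁ with _ | _ | f₁
      · omega
      · simpa using habs₁
      · exact absurd h' (Nat.Prime.not_prime_pow (by omega))
    obtain ⟨Q, _, σ, hQ, hσ⟩ := prime_data R
    have hkey := key R Q σ f₂ hQ hσ (hR ▸ hc) habs₂
    obtain ⟨W, hWm, hWo⟩ := Ideal.exists_maximal_ideal_liesOver_of_isIntegral (S := 𝓞 M) W₀
    obtain ⟨g, hg⟩ := exists_isArithFrobAt (K := F) W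
    have : IsScalarTower K F M := IsScalarTower.of_algebraMap_eq fun x => IsScalarTower.algebraMap_apply K E M x
    let g' : M ≃ₐ[K] M := g.restrictScalars K
    have hg'H : g' ∈ H ⊓ ρ.ker := by
      rw [← IntermediateField.fixingSubgroup_fixedField (H ⊓ ρ.ker)]
      intro x
      exact g.commutes ⟨(x : M), x.2⟩
    have hg' : ∀ x : 𝓞 M, g' • x - x ^ Ideal.absNorm W₀ ∈ W := fun x => by
      have := frob_smul_sub_pow_mem hg 1 x
      rw [pow_one, pow_one, ← hWo.over] at this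
      exact this
    have : (W.under (𝓞 L)).IsMaximal := Ideal.isMaximal_comap_of_isIntegral_of_isMaximal W
    have hWE : W.under (𝓞 E) = R := by
      rw [show R = W₀.under (𝓞 E) from rfl, hWo.over, Ideal.under_under]
    have hWK : W.under (𝓞 K) = R.under (𝓞 K) := by
      rw [← hWE, Ideal.under_under]
    have hQW : Q.under (𝓞 K) = (W.under (𝓞 L)).under (𝓞 K) := by
      rw [Ideal.under_under, hWK, hQ]
    have hres := restrictNormal_eq_frob_pow (frob_of_under_eq hcomm hQW hσ)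
      (hunr _ inferInstance) (n := Ideal.absNorm W₀) (f := f₂) hg' (by rw [hR, habs₂, hWK])
    have h1 : g'.restrictNormal L = 1 := hg'H.2
    rw [h1] at hres
    have hfin : h (ZMod.unitOfCoprime _ (hR ▸ hc : (Ideal.absNorm R).Coprime m)) = 1 := by
      rw [← hkey, ← map_pow, ← hres, map_one]
    convert hfin using 2
    exact Units.ext (by simp [hR])
  have : IsTotallyComplex E := isTotallyComplex_of_algebra K E
  obtain ⟨j, hj⟩ := exists_pow_eq_of_norm_ker hm hp hp2 ψE hψE h hneg (fun R hR hc => by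
      have : (R : Ideal (𝓞 E)).IsMaximal := hR.isMaximal (nonZeroDivisors.coe_ne_zero R)
      obtain ⟨f, hf, -, habs⟩ := exists_relNorm_eq_pow (K := K) (R : Ideal (𝓞 E))
      obtain ⟨Q, _, σ, hQ, hσ⟩ := prime_data (R : Ideal (𝓞 E))
      rw [← key _ Q σ f hQ hσ hc habs, ← map_pow, ← map_pow, ← pow_mul, mul_comm, pow_mul,
        pow_card_eq_one hp hcard, one_pow, map_one])
    F hdeg hM (fun R hR hc hh1 => by
      have : (R : Ideal (𝓞 E)).IsMaximal := hR.isMaximal (nonZeroDivisors.coe_ne_zero R)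
      have : ((R : Ideal (𝓞 E)).under (𝓞 K)).IsMaximal :=
        Ideal.isMaximal_comap_of_isIntegral_of_isMaximal _
      obtain ⟨f, hf, -, habs⟩ := exists_relNorm_eq_pow (K := K) (R : Ideal (𝓞 E))
      obtain ⟨Q, _, σ, hQ, hσ⟩ := prime_data (R : Ideal (𝓞 E))
      rw [← key _ Q σ f hQ hσ hc habs, ← map_pow] at hh1
      have hσf : σ ^ f = 1 := hθ (hh1.trans (map_one θ).symm)
      rw [hψE_mk R f habs]
      by_cases hσ1 : σ = 1
      · subst hσ1
        have : (Q.under (𝓞 K)).IsMaximal := Ideal.isMaximal_comap_of_isIntegral_of_isMaximal Q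
        have h1 := hψ Q hσ
        have h2 : ideal0 ((R : Ideal (𝓞 E)).under (𝓞 K)) = ideal0 (Q.under (𝓞 K)) :=
          Subtype.ext hQ.symm
        rw [h2, h1, one_pow]
      · have : Fact p.Prime := ⟨hp⟩
        have hord : orderOf σ = p := orderOf_eq_prime (pow_card_eq_one hp hcard σ) hσ1
        obtain ⟨k, rfl⟩ : p ∣ f := hord ▸ orderOf_dvd_of_pow_eq_one hσf
        rw [pow_mul, ← MonoidHom.pow_apply, hψp, MonoidHom.one_apply, one_pow])
  refine ⟨j, fun R _ _ Q _ σ f hQR hσ hc hf => ?_⟩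
  have hRp : (R : Ideal (𝓞 E)).IsPrime := Ideal.IsMaximal.isPrime inferInstance
  have h1 := hj (ideal0 R) hRp hc
  have : ((ideal0 R : (Ideal (𝓞 E))⁰) : Ideal (𝓞 E)).IsMaximal := (inferInstance : R.IsMaximal)
  rw [hψE_mk (ideal0 R) f hf] at h1
  rw [key R Q σ f hQR hσ hc hf]
  exact h1

end Fermat.Agent.ClassField.Recip
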