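import Fermat.Agent.ClassField.Recip.Crossing

/-!
# The exponent of Artin's crossing argument is independent of the prime
-/

set_option autoImplicit false

noncomputable section

open NumberField
open scoped Pointwise nonZeroDivisors

namespace Fermat.Agent.ClassField.Recip

/-- A prime of `M` of prime norm with a Frobenius in any given cyclic subgroup generating it
(Frobenius density). -/
lemma exists_prime_norm_frobenius {M : Type*} [Field M] [NumberField M] {K : Type*} [Field K]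
    [NumberField K] [Algebra K M] (g₀ : M ≃ₐ[K] M) (S : Finset ℕ) :
    ∃ ℓ : ℕ, ℓ.Prime ∧ ℓ ∉ S ∧ ∃ (W : Ideal (𝓞 M)) (_ : W.IsMaximal), (ℓ : 𝓞 M) ∈ W ∧
      ∃ a b : ℕ, g₀ = (g₀ ^ a) ^ b ∧ ∀ x : 𝓞 M, (g₀ ^ a) • x - x ^ ℓ ∈ W := by
  classical
  have : IsAlgClosed (AlgebraicClosure ℚ) := inferInstance
  let e : M →ₐ[ℚ] AlgebraicClosure ℚ := IsAlgClosed.lift
  let L₀ : IntermediateField ℚ (AlgebraicClosure ℚ) := e.fieldRange
  have : FiniteDimensional ℚ L₀ := (AlgEquiv.ofInjectiveField e).toLinearEquiv.finiteDimensional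
  let e₂ : M →ₐ[ℚ] AlgebraicClosure ℚ := e.comp (g₀.restrictScalars ℚ).toAlgHom
  let _ : Algebra M (AlgebraicClosure ℚ) := e.toRingHom.toAlgebra
  have : IsScalarTower ℚ M (AlgebraicClosure ℚ) :=
    IsScalarTower.of_algebraMap_eq fun x => (e.commutes x).symm
  have : Algebra.IsAlgebraic ℚ (AlgebraicClosure ℚ) := AlgebraicClosure.isAlgebraic ℚ
  have : IsAlgClosure ℚ (AlgebraicClosure ℚ) := ⟨inferInstance, inferInstance⟩
  have : Normal ℚ (AlgebraicClosure ℚ) := IsAlgClosure.normal ℚ _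
  let ĝ : AlgebraicClosure ℚ ≃ₐ[ℚ] AlgebraicClosure ℚ :=
    (g₀.restrictScalars ℚ).liftNormal (AlgebraicClosure ℚ)
  have hĝ : ∀ y : M, ĝ (e y) = e (g₀ y) := fun y =>
    AlgEquiv.liftNormal_commutes (g₀.restrictScalars ℚ) (AlgebraicClosure ℚ) y
  have hĝn : ∀ (n : ℕ) (y : M), (ĝ ^ n) (e y) = e ((g₀ ^ n) y) := by
    intro n
    induction n with
    | zero => intro y; simp
    | succ n ih =>
      intro y
      rw [pow_succ', pow_succ', AlgEquiv.mul_apply, AlgEquiv.mul_apply, ih, hĝ]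
  obtain ⟨ℓ, hℓ, hℓS, A, σ, hA, hσ, -, a, b, ha, hb⟩ :=
    Density.exists_isFrobeniusAt_agree_pow L₀ ĝ S
  have hσe : ∀ y : M, σ (e y) = e ((g₀ ^ a) y) := fun y => by
    rw [ha (e y) ⟨y, rfl⟩, hĝn]
  have hσn : ∀ (n : ℕ) (y : M), (σ ^ n) (e y) = e (((g₀ ^ a) ^ n) y) := by
    intro n
    induction n with
    | zero => intro y; simp
    | succ n ih =>
      intro y
      rw [pow_succ', pow_succ', AlgEquiv.mul_apply, AlgEquiv.mul_apply, ih, hσe]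
  let ι : 𝓞 M →+* A :=
    (e.toRingHom.comp (algebraMap (𝓞 M) M)).codRestrict A.toSubring fun x =>
      Galois.mem_valuationSubring_of_isIntegral_int A
        (x.2.map (e.restrictScalars ℤ))
  let W : Ideal (𝓞 M) := (IsLocalRing.maximalIdeal A).comap ι
  have hW : ∀ x : 𝓞 M, x ∈ W ↔ e (x : M) ∈ A.nonunits := fun x => by
    rw [Ideal.mem_comap, ← ValuationSubring.coe_mem_nonunits_iff]
    rfl
  have hℓW : (ℓ : 𝓞 M) ∈ W := by
    rw [hW]
    simpa [ValuationSubring.LiesOverPrime] using hA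
  have hWp : W.IsPrime := Ideal.IsPrime.comap ι
  have hWm : W.IsMaximal := hWp.isMaximal fun h0 => by
    rw [h0, Ideal.mem_bot] at hℓW
    exact hℓ.ne_zero (by exact_mod_cast hℓW)
  refine ⟨ℓ, hℓ, hℓS, W, hWm, hℓW, a, b, AlgEquiv.ext fun y => e.injective ?_, fun x => ?_⟩
  · change e (g₀ y) = e (((g₀ ^ a) ^ b) y)
    rw [← hĝ y, ← hσn b y, hb (e y) ⟨y, rfl⟩]
  · rw [Ideal.mem_comap, map_sub, map_pow]
    have h := hσ.smul_residue_eq (IsLocalRing.residue A (ι x))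
    rw [← IsLocalRing.ResidueField.residue_smul, ← map_pow] at h
    convert Ideal.Quotient.eq.mp h using 2
    exact Subtype.ext (hσe (x : M)).symm

variable {K L : Type*} [Field K] [NumberField K] [Field L] [NumberField L] [Algebra K L]
  [IsGalois K L] [IsTotallyComplex K]
  {p : ℕ} (hp : p.Prime) (hp2 : p ≠ 2) (hcard : Nat.card (L ≃ₐ[K] L) = p)
  (hunr : ∀ Q : Ideal (𝓞 L), Q.IsMaximal → Q.inertia (L ≃ₐ[K] L) = ⊥)
  (θ : (L ≃ₐ[K] L) →* ℂˣ) (hθ : Function.Injective θ)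
  (ψ : ClassGroup (𝓞 K) →* ℂˣ) (hψp : ψ ^ p = 1)
  (hψ : ∀ (Q : Ideal (𝓞 L)) [Q.IsMaximal] [(Q.under (𝓞 K)).IsMaximal],
    IsArithFrobAt (𝓞 K) (1 : L ≃ₐ[K] L) Q →
      ψ (ClassGroup.mk0 (ideal0 (Q.under (𝓞 K)))) = 1)

/-- The data needed in the crossing argument at one inert prime: an auxiliary prime `q` and an
even character of `(ℤ/q)ˣ` taking the value `θ σ` at `N P`. -/
lemma exists_aux (P : Ideal (𝓞 K)) [P.IsMaximal] (z : ℂˣ) (hz : z ^ p = 1)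
    (hp : p.Prime) (hp2 : p ≠ 2) (B : ℕ) :
    ∃ q : ℕ, q.Prime ∧ B < q ∧ ∃ (hc : (Ideal.absNorm P).Coprime q) (h : (ZMod q)ˣ →* ℂˣ),
      h (-1) = 1 ∧ h (ZMod.unitOfCoprime _ hc) = z := by
  have hN := one_lt_absNorm P
  obtain ⟨q, hq, hBq, hord⟩ := exists_prime_dvd_orderOf hp hp2 hN (B + Ideal.absNorm P)
  have : NeZero q := ⟨hq.ne_zero⟩
  have hc : (Ideal.absNorm P).Coprime q :=
    ((hq.coprime_iff_not_dvd).mpr fun h => by
      have := Nat.le_of_dvd (by omega) h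
      omega).symm
  have hord' : p ∣ orderOf (ZMod.unitOfCoprime _ hc) := by
    rwa [← orderOf_units, ZMod.coe_unitOfCoprime]
  obtain ⟨h, h1, h2⟩ := exists_even_char hp hp2 _ hord' z hz
  exact ⟨q, hq, by omega, hc, h, h1, h2⟩

include hp hp2 hcard hunr hθ hψp hψ in
/-- **Crossing**: a single exponent works for two inert primes. -/
theorem exists_common_exponent (Q₁ Q₂ : Ideal (𝓞 L)) [Q₁.IsMaximal] [Q₂.IsMaximal]
    [(Q₁.under (𝓞 K)).IsMaximal] [(Q₂.under (𝓞 K)).IsMaximal] (σ₁ σ₂ : L ≃ₐ[K] L)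
    (h₁ : IsArithFrobAt (𝓞 K) σ₁ Q₁) (h₂ : IsArithFrobAt (𝓞 K) σ₂ Q₂)
    (hne₁ : σ₁ ≠ 1) (hne₂ : σ₂ ≠ 1) :
    ∃ j : ℕ, ψ (ClassGroup.mk0 (ideal0 (Q₁.under (𝓞 K)))) = θ σ₁ ^ j ∧
      ψ (ClassGroup.mk0 (ideal0 (Q₂.under (𝓞 K)))) = θ σ₂ ^ j := by
  classical
  have : Fact p.Prime := ⟨hp⟩
  have hcyc := isCyclic_of_prime_card (α := L ≃ₐ[K] L) hcard
  have hcomm : ∀ a b : L ≃ₐ[K] L, a * b = b * a := fun a b => mul_comm' a b
  have hzp : ∀ σ : L ≃ₐ[K] L, θ σ ^ p = 1 := fun σ => by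
    rw [← map_pow, pow_card_eq_one hp hcard, map_one]
  obtain ⟨q₁, hq₁, hB₁, hc₁, h₁', hneg₁, hval₁⟩ :=
    exists_aux (Q₁.under (𝓞 K)) (θ σ₁) (hzp σ₁) hp hp2
      ((discr L).natAbs + Ideal.absNorm (Q₂.under (𝓞 K)))
  obtain ⟨q₂, hq₂, hB₂, hc₂, h₂', hneg₂, hval₂⟩ :=
    exists_aux (Q₂.under (𝓞 K)) (θ σ₂) (hzp σ₂) hp hp2
      (q₁ + (discr L).natAbs + Ideal.absNorm (Q₁.under (𝓞 K)))
  have hNpos : ∀ P : Ideal (𝓞 K), P.IsMaximal → 0 < Ideal.absNorm P := fun P hP =>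
    lt_trans zero_lt_one (one_lt_absNorm P)
  have hq12 : q₁ < q₂ := by omega
  have := NeZero.of_pos hq₁.pos
  have := NeZero.of_pos hq₂.pos
  let n := q₁ * q₂
  have : NeZero n := ⟨mul_ne_zero hq₁.ne_zero hq₂.ne_zero⟩
  have hcop : (discr L).natAbs.Coprime n := by
    have hd : 0 < (discr L).natAbs := Int.natAbs_pos.mpr (discr_ne_zero L)
    refine Nat.Coprime.mul_right ?_ ?_
    · exact (hq₁.coprime_iff_not_dvd.mpr fun h => by
        have := Nat.le_of_dvd hd h; omega).symm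
    · exact (hq₂.coprime_iff_not_dvd.mpr fun h => by
        have := Nat.le_of_dvd hd h; omega).symm
  -- the compositum `M = L(ζ_n)`
  have : NeZero (n : AlgebraicClosure L) := ⟨Nat.cast_ne_zero.mpr (NeZero.ne n)⟩
  obtain ⟨ζΩ, hζΩ⟩ := HasEnoughRootsOfUnity.exists_primitiveRoot (AlgebraicClosure L) n
  let M : IntermediateField L (AlgebraicClosure L) := IntermediateField.adjoin L {ζΩ}
  have : FiniteDimensional L M :=
    IntermediateField.adjoin.finiteDimensional (hζΩ.isIntegral (NeZero.pos n)).tower_top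
  have : NumberField M := NumberField.of_module_finite L M
  let ζ : M := ⟨ζΩ, IntermediateField.mem_adjoin_simple_self L ζΩ⟩
  have hζ : IsPrimitiveRoot ζ n :=
    hζΩ.of_map_of_injective (f := algebraMap M (AlgebraicClosure L))
      (algebraMap M (AlgebraicClosure L)).injective
  have hgen : IntermediateField.adjoin L {ζ} = ⊤ := by
    apply IntermediateField.map_injective M.val
    rw [IntermediateField.adjoin_map, Set.image_singleton, ← AlgHom.fieldRange_eq_map,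
      IntermediateField.fieldRange_val]
    rfl
  have : IsGalois K M := isGalois_of_adjoin_eq_top K L M hζ hgen
  let ρ : (M ≃ₐ[K] M) →* (L ≃ₐ[K] L) := AlgEquiv.restrictNormalHom L
  let χ : (M ≃ₐ[K] M) →* (ZMod n)ˣ := hζ.autToPow K
  let ζ₁ := ζ ^ q₂
  let ζ₂ := ζ ^ q₁
  have hζ₁ : IsPrimitiveRoot ζ₁ q₁ := hζ.pow (NeZero.pos n) (mul_comm q₁ q₂)
  have hζ₂ : IsPrimitiveRoot ζ₂ q₂ := hζ.pow (NeZero.pos n) rfl
  let H₁ : Subgroup (M ≃ₐ[K] M) :=
    MonoidHom.eqLocus (θ.comp ρ) (h₁'.comp (hζ₁.autToPow K))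
  let H₂ : Subgroup (M ≃ₐ[K] M) :=
    MonoidHom.eqLocus (θ.comp ρ) (h₂'.comp (hζ₂.autToPow K))
  obtain ⟨j₁, hj₁⟩ := exists_relation hp hp2 hcard hunr θ hθ ψ hψp hψ H₁ hq₁.one_lt hζ₁ h₁' hneg₁
    (fun g hg => hg)
  obtain ⟨j₂, hj₂⟩ := exists_relation hp hp2 hcard hunr θ hθ ψ hψp hψ H₂ hq₂.one_lt hζ₂ h₂' hneg₂
    (fun g hg => hg)
  -- the Frobenius of `K` at a prime of `M` lies in the corresponding group
  have hself : ∀ (q : ℕ) [NeZero q] (ζ' : M) (hζ' : IsPrimitiveRoot ζ' q)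
      (h' : (ZMod q)ˣ →* ℂˣ) (Q : Ideal (𝓞 L)) [Q.IsMaximal] [(Q.under (𝓞 K)).IsMaximal]
      (σ : L ≃ₐ[K] L), IsArithFrobAt (𝓞 K) σ Q →
      ∀ hc : (Ideal.absNorm (Q.under (𝓞 K))).Coprime q, h' (ZMod.unitOfCoprime _ hc) = θ σ →
      ∀ j : ℕ, (∀ (R : Ideal (𝓞 (IntermediateField.fixedField
            (MonoidHom.eqLocus (θ.comp ρ) (h'.comp (hζ'.autToPow K)))))) [R.IsMaximal]
          [(R.under (𝓞 K)).IsMaximal] (Q' : Ideal (𝓞 L)) [Q'.IsMaximal] (σ' : L ≃ₐ[K] L) (f : ℕ),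
          Q'.under (𝓞 K) = R.under (𝓞 K) → IsArithFrobAt (𝓞 K) σ' Q' →
          (Ideal.absNorm R).Coprime q →
          Ideal.absNorm R = Ideal.absNorm (R.under (𝓞 K)) ^ f →
            ψ (ClassGroup.mk0 (ideal0 (R.under (𝓞 K)))) ^ f = (θ σ' ^ f) ^ j) →
        ψ (ClassGroup.mk0 (ideal0 (Q.under (𝓞 K)))) = θ σ ^ j := by
    intro q _ ζ' hζ' h' Q _ _ σ hσ hc hval j hj
    let H := MonoidHom.eqLocus (θ.comp ρ) (h'.comp (hζ'.autToPow K))
    obtain ⟨W, hWm, hWo⟩ := Ideal.exists_maximal_ideal_liesOver_of_isIntegral (S := 𝓞 M) Q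
    obtain ⟨g, hg⟩ := exists_isArithFrobAt (K := K) W
    have hWK : W.under (𝓞 K) = Q.under (𝓞 K) := by
      rw [hWo.over, Ideal.under_under]
    have : (W.under (𝓞 L)).IsMaximal := Ideal.isMaximal_comap_of_isIntegral_of_isMaximal W
    have hg1 : ∀ x : 𝓞 M, g • x - x ^ Ideal.absNorm (Q.under (𝓞 K)) ∈ W := fun x => by
      have := frob_smul_sub_pow_mem hg 1 x
      rwa [pow_one, pow_one, hWK] at this
    have hσW : IsArithFrobAt (𝓞 K) σ (W.under (𝓞 L)) := by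
      refine frob_of_under_eq hcomm ?_ hσ
      rw [Ideal.under_under, hWK]
    have hρ : ρ g = σ := by
      have := restrictNormal_eq_frob_pow hσW (hunr _ inferInstance) (f := 1) hg1
        (by rw [pow_one, hWK])
      rw [pow_one] at this
      exact this
    have hqW : (q : 𝓞 M) ∉ W := by
      intro hm
      apply hWm.ne_top
      rw [Ideal.eq_top_iff_one]
      have hb : ((Ideal.absNorm (Q.under (𝓞 K)) : ℕ) : 𝓞 M) ∈ W := by
        have h0 : algebraMap (𝓞 K) (𝓞 M) ((Ideal.absNorm (W.under (𝓞 K)) : ℕ) : 𝓞 K) ∈ W :=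
          Ideal.absNorm_mem (W.under (𝓞 K))
        rwa [map_natCast, hWK] at h0
      obtain ⟨a, b, hab⟩ := hc.isCoprime
      have : ((a * (Ideal.absNorm (Q.under (𝓞 K)) : ℤ) + b * (q : ℤ) : ℤ) : 𝓞 M) ∈ W := by
        push_cast
        exact W.add_mem (W.mul_mem_left _ hb) (W.mul_mem_left _ hm)
      rwa [hab, Int.cast_one] at this
    have hchi : hζ'.autToPow K g = ZMod.unitOfCoprime _ hc := by
      let z : 𝓞 M := hζ'.toInteger
      have hz : z ^ q = 1 := hζ'.toInteger_isPrimitiveRoot.pow_eq_one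
      have e1 : g • z = z ^ Nat.card (𝓞 K ⧸ W.under (𝓞 K)) := hg.apply_of_pow_eq_one hz hqW
      rw [hWK, natCard_quotient_eq_absNorm] at e1
      have e2 : g ζ' = ζ' ^ Ideal.absNorm (Q.under (𝓞 K)) :=
        congrArg (fun y : 𝓞 M => (y : M)) e1
      have e3 := hζ'.autToPow_spec K g
      rw [e2] at e3
      have e4 : (hζ'.autToPow K g : ZMod q).val ≡ Ideal.absNorm (Q.under (𝓞 K)) [MOD q] := by
        rw [pow_eq_pow_mod _ hζ'.pow_eq_one,
          pow_eq_pow_mod (Ideal.absNorm (Q.under (𝓞 K))) hζ'.pow_eq_one] at e3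
        exact hζ'.pow_inj (Nat.mod_lt _ (NeZero.pos q)) (Nat.mod_lt _ (NeZero.pos q)) e3
      apply Units.ext
      rw [ZMod.coe_unitOfCoprime]
      exact (ZMod.natCast_zmod_val _).symm.trans ((ZMod.natCast_eq_natCast_iff _ _ _).mpr e4)
    have hgH : g ∈ H := by
      change θ (ρ g) = h' (hζ'.autToPow K g)
      rw [hρ, hchi, hval]
    let E := IntermediateField.fixedField H
    let R : Ideal (𝓞 E) := W.under (𝓞 E)
    have : R.IsMaximal := Ideal.isMaximal_comap_of_isIntegral_of_isMaximal W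
    have hRK : R.under (𝓞 K) = Q.under (𝓞 K) := by
      rw [show R = W.under (𝓞 E) from rfl, Ideal.under_under, hWK]
    have : (R.under (𝓞 K)).IsMaximal := Ideal.isMaximal_comap_of_isIntegral_of_isMaximal R
    have hR := absNorm_eq_absNorm_under (K := K) R fun x => by
      rw [hRK, show R = W.under (𝓞 E) from rfl, Ideal.under_def, Ideal.mem_comap, map_sub, map_pow]
      have hfix : g • algebraMap (𝓞 E) (𝓞 M) x = algebraMap (𝓞 E) (𝓞 M) x :=
        RingOfIntegers.ext ((x : E).2 ⟨g, hgH⟩)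
      have h0 := hg1 (algebraMap (𝓞 E) (𝓞 M) x)
      rw [hfix] at h0
      rw [← neg_sub]
      exact W.neg_mem h0
    have hfin := hj R Q σ 1 hRK.symm hσ (by rw [hR.1, hRK]; exact hc) (by rw [pow_one, hR.1])
    rw [pow_one, pow_one] at hfin
    rw [← hfin]
    congr 2
    exact Subtype.ext hRK.symm
  have e₁ := hself q₁ ζ₁ hζ₁ h₁' Q₁ σ₁ h₁ hc₁ hval₁ j₁ hj₁
  have e₂ := hself q₂ ζ₂ hζ₂ h₂' Q₂ σ₂ h₂ hc₂ hval₂ j₂ hj₂
  -- a common prime
  have hgen0 : ∀ (q : ℕ) [NeZero q] (a : (ZMod q)ˣ) (h' : (ZMod q)ˣ →* ℂˣ) (σ' : L ≃ₐ[K] L),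
      σ' ≠ 1 → h' a = θ σ' → ∀ τ : L ≃ₐ[K] L, ∃ u : (ZMod q)ˣ, h' u = θ τ := by
    intro q _ a h' σ' hσ' ha τ
    obtain ⟨k, rfl⟩ := Subgroup.mem_zpowers_iff.mp (mem_zpowers_of_prime_card hcard hσ' (g' := τ))
    exact ⟨a ^ k, by rw [map_zpow, map_zpow, ha]⟩
  obtain ⟨u₁, hu₁⟩ := hgen0 q₁ _ h₁' σ₁ hne₁ hval₁ σ₁
  obtain ⟨u₂, hu₂⟩ := hgen0 q₂ _ h₂' σ₂ hne₂ hval₂ σ₁
  have hco : q₁.Coprime q₂ := (Nat.coprime_primes hq₁ hq₂).mpr hq12.ne
  let cr := ZMod.chineseRemainder hco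
  let u : (ZMod n)ˣ := (Units.mapEquiv cr.toMulEquiv).symm (MulEquiv.prodUnits.symm (u₁, u₂))
  obtain ⟨g₀, hg₀ρ, hg₀χ⟩ :=
    exists_restrictNormal_eq_and_autToPow_eq K L M hζ hgen hcop σ₁ u
  have hchi_pow : ∀ (q c : ℕ) [NeZero q] (hqn : q ∣ n) (ζ' : M) (hζ' : IsPrimitiveRoot ζ' q),
      ζ' = ζ ^ c → ((hζ'.autToPow K g₀ : (ZMod q)ˣ) : ZMod q) = ZMod.castHom hqn (ZMod q) u := by
    intro q c _ hqn ζ' hζ' hc'
    have e3 := hζ'.autToPow_spec K g₀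
    have e5 := hζ.autToPow_spec K g₀
    rw [hg₀χ] at e5
    have e6 : g₀ ζ' = ζ' ^ ((u : ZMod n)).val := by
      rw [hc', map_pow, ← e5, ← pow_mul, ← pow_mul, mul_comm]
    rw [e6] at e3
    rw [pow_eq_pow_mod _ hζ'.pow_eq_one, pow_eq_pow_mod ((u : ZMod n)).val hζ'.pow_eq_one] at e3
    have e4 : (hζ'.autToPow K g₀ : ZMod q).val ≡ ((u : ZMod n)).val [MOD q] :=
      hζ'.pow_inj (Nat.mod_lt _ (NeZero.pos q)) (Nat.mod_lt _ (NeZero.pos q)) e3
    rw [← ZMod.natCast_zmod_val (hζ'.autToPow K g₀ : ZMod q),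
      (ZMod.natCast_eq_natCast_iff _ _ _).mpr e4, ZMod.natCast_val, ZMod.castHom_apply]
  have hcr : cr (u : ZMod n) = ((u₁ : ZMod q₁), (u₂ : ZMod q₂)) := by
    simp [u]
    rfl
  have hmem₁ : g₀ ∈ H₁ := by
    change θ (ρ g₀) = h₁' (hζ₁.autToPow K g₀)
    rw [show ρ g₀ = σ₁ from hg₀ρ, ← hu₁]
    congr 1
    refine Units.ext ?_
    rw [hchi_pow q₁ q₂ (dvd_mul_right _ _) ζ₁ hζ₁ rfl]
    refine (congrArg Prod.fst hcr).symm.trans ?_
    exact DFunLike.congr_fun (Subsingleton.elim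
      ((RingHom.fst _ _).comp (cr : ZMod n →+* ZMod q₁ × ZMod q₂)) (ZMod.castHom _ _)) _
  have hmem₂ : g₀ ∈ H₂ := by
    change θ (ρ g₀) = h₂' (hζ₂.autToPow K g₀)
    rw [show ρ g₀ = σ₁ from hg₀ρ, ← hu₂]
    congr 1
    refine Units.ext ?_
    rw [hchi_pow q₂ q₁ (dvd_mul_left _ _) ζ₂ hζ₂ rfl]
    refine (congrArg Prod.snd hcr).symm.trans ?_
    exact DFunLike.congr_fun (Subsingleton.elim
      ((RingHom.snd _ _).comp (cr : ZMod n →+* ZMod q₁ × ZMod q₂)) (ZMod.castHom _ _)) _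
  obtain ⟨ℓ, hℓ, hℓn, W, hWm, hℓW, a, b, hab, hWfrob⟩ :=
    exists_prime_norm_frobenius g₀ ({q₁, q₂} : Finset ℕ)
  simp only [Finset.mem_insert, Finset.mem_singleton, not_or] at hℓn
  let g := g₀ ^ a
  have : (W.under (𝓞 K)).IsMaximal := Ideal.isMaximal_comap_of_isIntegral_of_isMaximal W
  have : (W.under (𝓞 L)).IsMaximal := Ideal.isMaximal_comap_of_isIntegral_of_isMaximal W
  obtain ⟨σ₃, hσ₃⟩ := exists_isArithFrobAt (K := K) (W.under (𝓞 L))
  have hnorm : ∀ (E : IntermediateField K M), (∀ x : E, g (x : M) = (x : M)) →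
      Ideal.absNorm (W.under (𝓞 E)) = ℓ := by
    intro E hE
    have : (W.under (𝓞 E)).IsMaximal := Ideal.isMaximal_comap_of_isIntegral_of_isMaximal W
    have hle : Ideal.absNorm (W.under (𝓞 E)) ≤ ℓ :=
      absNorm_le_of_forall_pow_sub_mem _ hℓ.one_lt fun x => by
        rw [Ideal.under_def, Ideal.mem_comap, map_sub, map_pow]
        have h0 := hWfrob (algebraMap (𝓞 E) (𝓞 M) x)
        rw [show (g₀ ^ a) • algebraMap (𝓞 E) (𝓞 M) x = algebraMap (𝓞 E) (𝓞 M) x from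
          RingOfIntegers.ext (hE (x : E))] at h0
        rw [← neg_sub]
        exact W.neg_mem h0
    have hℓE : (ℓ : 𝓞 E) ∈ W.under (𝓞 E) := by
      rw [Ideal.under_def, Ideal.mem_comap, map_natCast]
      exact hℓW
    have hdvd : Ideal.absNorm (W.under (𝓞 E)) ∣ ℓ ^ Module.finrank ℤ (𝓞 E) :=
      (Ideal.absNorm_dvd_absNorm_of_le ((Ideal.span_singleton_le_iff_mem _).mpr hℓE)).trans
        (dvd_of_eq (Ideal.absNorm_span_natCast ℓ))
    obtain ⟨k, -, hk⟩ := (Nat.dvd_prime_pow hℓ).mp hdvd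
    have h1 := one_lt_absNorm (W.under (𝓞 E))
    rcases k with _ | _ | k
    · rw [hk, pow_zero] at h1; omega
    · rw [hk, pow_one]
    · exfalso
      have : ℓ ^ 1 < ℓ ^ (k + 1 + 1) := Nat.pow_lt_pow_right hℓ.one_lt (by omega)
      rw [pow_one, ← hk] at this
      omega
  have hK : Ideal.absNorm (W.under (𝓞 K)) = ℓ := by
    let E := IntermediateField.fixedField H₁
    have hgE : ∀ x : E, g (x : M) = (x : M) := fun x => x.2 ⟨g, H₁.pow_mem hmem₁ a⟩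
    have : (W.under (𝓞 E)).IsMaximal := Ideal.isMaximal_comap_of_isIntegral_of_isMaximal W
    obtain ⟨f, hf, -, habs⟩ := exists_relNorm_eq_pow (K := K) (W.under (𝓞 E))
    rw [hnorm E hgE, Ideal.under_under] at habs
    rcases f with _ | _ | f
    · omega
    · rw [habs, pow_one]
    · rw [habs] at hℓ
      exact absurd hℓ (Nat.Prime.not_prime_pow (by omega))
  have hρg : ρ g = σ₃ := by
    have := restrictNormal_eq_frob_pow hσ₃ (hunr _ inferInstance) (f := 1) hWfrob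
      (by rw [pow_one, hK])
    rw [pow_one] at this
    exact this
  have hσ₃ne : σ₃ ≠ 1 := by
    intro h
    apply hne₁
    have hb' : g₀ = g ^ b := hab
    rw [← show ρ g₀ = σ₁ from hg₀ρ, hb', map_pow, hρg, h, one_pow]
  have hcommon : ∀ (q : ℕ) [NeZero q] (hq : q.Prime) (hℓq : ℓ ≠ q) (H : Subgroup (M ≃ₐ[K] M))
      (hgH : g ∈ H) (j : ℕ),
      (∀ (R : Ideal (𝓞 (IntermediateField.fixedField H))) [R.IsMaximal]
        [(R.under (𝓞 K)).IsMaximal] (Q' : Ideal (𝓞 L)) [Q'.IsMaximal] (σ' : L ≃ₐ[K] L) (f : ℕ),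
        Q'.under (𝓞 K) = R.under (𝓞 K) → IsArithFrobAt (𝓞 K) σ' Q' →
        (Ideal.absNorm R).Coprime q →
        Ideal.absNorm R = Ideal.absNorm (R.under (𝓞 K)) ^ f →
          ψ (ClassGroup.mk0 (ideal0 (R.under (𝓞 K)))) ^ f = (θ σ' ^ f) ^ j) →
      ψ (ClassGroup.mk0 (ideal0 (W.under (𝓞 K)))) = θ σ₃ ^ j := by
    intro q _ hq hℓq H hgH j hj
    let E := IntermediateField.fixedField H
    have hN : Ideal.absNorm (W.under (𝓞 E)) = ℓ := hnorm E fun x => x.2 ⟨g, hgH⟩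
    have : (W.under (𝓞 E)).IsMaximal := Ideal.isMaximal_comap_of_isIntegral_of_isMaximal W
    have hEK : (W.under (𝓞 E)).under (𝓞 K) = W.under (𝓞 K) := Ideal.under_under W
    have : ((W.under (𝓞 E)).under (𝓞 K)).IsMaximal :=
      Ideal.isMaximal_comap_of_isIntegral_of_isMaximal _
    have h := hj (W.under (𝓞 E)) (W.under (𝓞 L)) σ₃ 1
      ((Ideal.under_under W).trans hEK.symm) hσ₃
      (by rw [hN]; exact (Nat.coprime_primes hℓ hq).mpr hℓq)
      (by rw [pow_one, hN, hEK, hK])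
    rw [pow_one, pow_one] at h
    rw [← h]
    congr 3
  have c₁ := hcommon q₁ hq₁ hℓn.1 H₁ (H₁.pow_mem hmem₁ a) j₁ hj₁
  have c₂ := hcommon q₂ hq₂ hℓn.2 H₂ (H₂.pow_mem hmem₂ a) j₂ hj₂
  refine ⟨j₁, e₁, ?_⟩
  rw [e₂]
  obtain ⟨k, rfl⟩ := Subgroup.mem_zpowers_iff.mp (mem_zpowers_of_prime_card hcard hσ₃ne (g' := σ₂))
  have hj : θ σ₃ ^ j₂ = θ σ₃ ^ j₁ := c₂.symm.trans c₁
  rw [map_zpow, ← zpow_natCast, ← zpow_natCast, ← zpow_mul, ← zpow_mul, mul_comm k, mul_comm k,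
    zpow_mul, zpow_mul, zpow_natCast, zpow_natCast, hj]

end Fermat.Agent.ClassField.Recip
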